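import Mathlib.LinearAlgebra.Matrix.GeneralLinearGroup.Card
import Mathlib.LinearAlgebra.Matrix.GeneralLinearGroup.FinTwo
import Mathlib.GroupTheory.Sylow
import Mathlib.Algebra.Field.ZMod
import Mathlib.Tactic.LinearCombination

/-!
# The group `GL₂(𝔽₃)`

Its Sylow `2`-subgroup `sylowTwo`, semidihedral of order `16`, has the cocycle `psi` of its cosets,
and a character `chi` which is neither trivial nor the determinant. Two elements of order three
with different fixed lines generate `SL₂(𝔽₃)`.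
-/

set_option autoImplicit false

open Matrix

namespace FA.SerreThree

/-- The quaternion group in `SL₂(𝔽₃)`. -/
def quat (a b c d : ZMod 3) : Bool :=
  (a * d - b * c == 1) && ((a + d == 0) || ((b == 0) && (c == 0) && (a == d)))

/-- The semidihedral group generated by it and `diag (1, -1)`. -/
def sylowTwo (a b c d : ZMod 3) : Bool := quat a b c d || quat a (-b) c (-d)

/-- The coset of the semidihedral group among the powers of the upper unipotent element. -/
def psi (a b c d : ZMod 3) : ZMod 3 :=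
  if sylowTwo a b c d then 0 else if sylowTwo (a - c) (b - d) c d then 1 else 2

/-- The character of the semidihedral group killing the monomial elements. -/
def chi (a b c d : ZMod 3) : ZMod 2 :=
  if (a = 0 ∧ d = 0) ∨ (b = 0 ∧ c = 0) then 0 else 1

theorem psi_mul : ∀ a b c d a' b' c' d' : ZMod 3, a * d - b * c ≠ 0 → a' * d' - b' * c' ≠ 0 →
    psi (a * a' + b * c') (a * b' + b * d') (c * a' + d * c') (c * b' + d * d') =
      psi a b c d + (a * d - b * c) * psi a' b' c' d' := by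
  decide +kernel

theorem psi_eq_zero : ∀ a b c d : ZMod 3, psi a b c d = 0 ↔ sylowTwo a b c d = true := by
  decide +kernel

theorem chi_mul : ∀ a b c d a' b' c' d' : ZMod 3, sylowTwo a b c d = true →
    sylowTwo a' b' c' d' = true →
    chi (a * a' + b * c') (a * b' + b * d') (c * a' + d * c') (c * b' + d * d') =
      chi a b c d + chi a' b' c' d' := by
  decide +kernel

theorem eigen_charpoly : ∀ a b c d v0 v1 x : ZMod 3, ¬ (v0 = 0 ∧ v1 = 0) →
    a * v0 + b * v1 = x * v0 → c * v0 + d * v1 = x * v1 →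
    x * x - (a + d) * x + (a * d - b * c) = 0 := by
  decide +kernel

theorem proportional : ∀ v0 v1 w0 w1 : ZMod 3, ¬ (v0 = 0 ∧ v1 = 0) → v0 * w1 - v1 * w0 = 0 →
    ∃ x, w0 = x * v0 ∧ w1 = x * v1 := by
  decide +kernel

theorem unipotent_cases : ∀ a b c d : ZMod 3,
    (a * a + b * c) * a + (a * b + b * d) * c = 1 →
    (a * a + b * c) * b + (a * b + b * d) * d = 0 →
    (c * a + d * c) * a + (c * b + d * d) * c = 0 →
    (c * a + d * c) * b + (c * b + d * d) * d = 1 → ¬ (a = 1 ∧ b = 0 ∧ c = 0 ∧ d = 1) →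
    (a = 1 → c = 0 → b ≠ 0 ∧ d = 1) ∧ (b = 0 → d = 1 → c ≠ 0 ∧ a = 1) := by
  decide +kernel

theorem exists_fixed_of_cube : ∀ a b c d : ZMod 3,
    (a * a + b * c) * a + (a * b + b * d) * c = 1 →
    (a * a + b * c) * b + (a * b + b * d) * d = 0 →
    (c * a + d * c) * a + (c * b + d * d) * c = 0 →
    (c * a + d * c) * b + (c * b + d * d) * d = 1 →
    ∃ v0 v1 : ZMod 3, ¬ (v0 = 0 ∧ v1 = 0) ∧ a * v0 + b * v1 = v0 ∧ c * v0 + d * v1 = v1 := by
  decide +kernel

instance fact_prime_three : Fact (Nat.Prime 3) := ⟨Nat.prime_three⟩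

/-- The upper unipotent element. -/
def upperOne (x : ZMod 3) : GL (Fin 2) (ZMod 3) :=
  ⟨!![1, x; 0, 1], !![1, -x; 0, 1], by simp [Matrix.one_fin_two], by simp [Matrix.one_fin_two]⟩

/-- The lower unipotent element. -/
def lowerOne (x : ZMod 3) : GL (Fin 2) (ZMod 3) :=
  ⟨!![1, 0; x, 1], !![1, 0; -x, 1], by simp [Matrix.one_fin_two], by simp [Matrix.one_fin_two]⟩

variable {H : Subgroup (GL (Fin 2) (ZMod 3))}

theorem upperOne_mul (x y : ZMod 3) : upperOne x * upperOne y = upperOne (x + y) :=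
  Units.ext (by simp [upperOne, add_comm])

theorem lowerOne_mul (x y : ZMod 3) : lowerOne x * lowerOne y = lowerOne (x + y) :=
  Units.ext (by simp [lowerOne])

theorem upperOne_mem {x : ZMod 3} (hx : x ≠ 0) (h : upperOne x ∈ H) (y : ZMod 3) :
    upperOne y ∈ H := by
  have h2 : upperOne (x + x) ∈ H := upperOne_mul x x ▸ mul_mem h h
  have h3 : upperOne (x + x + x) ∈ H := upperOne_mul _ x ▸ mul_mem h2 h
  have key : ∀ x y : ZMod 3, x ≠ 0 → y = x ∨ y = x + x ∨ y = x + x + x := by decide +kernel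
  rcases key x y hx with rfl | rfl | rfl <;> assumption

theorem lowerOne_mem {x : ZMod 3} (hx : x ≠ 0) (h : lowerOne x ∈ H) (y : ZMod 3) :
    lowerOne y ∈ H := by
  have h2 : lowerOne (x + x) ∈ H := lowerOne_mul x x ▸ mul_mem h h
  have h3 : lowerOne (x + x + x) ∈ H := lowerOne_mul _ x ▸ mul_mem h2 h
  have key : ∀ x y : ZMod 3, x ≠ 0 → y = x ∨ y = x + x ∨ y = x + x + x := by decide +kernel
  rcases key x y hx with rfl | rfl | rfl <;> assumption

/-- **`SL₂(𝔽₃)` is generated by the unipotent elements.** -/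
theorem mem_of_unipotent {x y : ZMod 3} (hx : x ≠ 0) (hy : y ≠ 0) (hU : upperOne x ∈ H)
    (hL : lowerOne y ∈ H) (M : GL (Fin 2) (ZMod 3))
    (hM : (M : Matrix (Fin 2) (Fin 2) (ZMod 3)).det = 1) : M ∈ H := by
  have key : ∀ a b c d : ZMod 3, a * d - b * c = 1 → c ≠ 0 →
      1 + (a - 1) * c * c = a ∧ (1 + (a - 1) * c * c) * ((d - 1) * c) + (a - 1) * c = b ∧
        c * ((d - 1) * c) + 1 = d := by
    decide +kernel
  have hc : ∀ M : GL (Fin 2) (ZMod 3), (M : Matrix (Fin 2) (Fin 2) (ZMod 3)).det = 1 →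
      M.val 1 0 ≠ 0 → M ∈ H := by
    intro M hM hc
    rw [det_fin_two] at hM
    obtain ⟨ha, hb, hd⟩ := key _ _ _ _ hM hc
    have e : M = upperOne ((M.val 0 0 - 1) * M.val 1 0) * lowerOne (M.val 1 0) *
        upperOne ((M.val 1 1 - 1) * M.val 1 0) := by
      refine Units.ext (Matrix.ext fun i j => ?_)
      fin_cases i <;> fin_cases j <;> simp [upperOne, lowerOne, ha] <;>
        first
          | exact hd.symm
          | (rw [ha] at hb; exact hb.symm)
    rw [e]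
    exact mul_mem (mul_mem (upperOne_mem hx hU _) (lowerOne_mem hy hL _)) (upperOne_mem hx hU _)
  by_cases h0 : M.val 1 0 = 0
  · have h11 : M.val 1 1 ≠ 0 := fun e => by
      rw [det_fin_two, h0, e] at hM; simp at hM
    have e : M = (M * lowerOne 1) * (lowerOne 1)⁻¹ := (mul_inv_cancel_right _ _).symm
    rw [e]
    refine mul_mem (hc _ ?_ ?_) (inv_mem (lowerOne_mem hy hL 1))
    · rw [Units.val_mul, det_mul, hM]; simp [lowerOne, det_fin_two]
    · simp [lowerOne, Matrix.mul_apply, Fin.sum_univ_two, h0, h11]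
  · exact hc M hM h0

/-- `GL₂(𝔽₃)` has `48` elements. -/
theorem natCard_gl : Nat.card (GL (Fin 2) (ZMod 3)) = 48 := by
  have h := Matrix.card_GL_field (n := 2) (𝔽 := ZMod 3)
  rw [h, ZMod.card, Fin.prod_univ_two]
  rfl

/-- The power cube in entries. -/
theorem cube_entries {u : GL (Fin 2) (ZMod 3)} (h : u ^ 3 = 1) :
    (u.val 0 0 * u.val 0 0 + u.val 0 1 * u.val 1 0) * u.val 0 0 +
        (u.val 0 0 * u.val 0 1 + u.val 0 1 * u.val 1 1) * u.val 1 0 = 1 ∧
      (u.val 0 0 * u.val 0 0 + u.val 0 1 * u.val 1 0) * u.val 0 1 +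
        (u.val 0 0 * u.val 0 1 + u.val 0 1 * u.val 1 1) * u.val 1 1 = 0 ∧
      (u.val 1 0 * u.val 0 0 + u.val 1 1 * u.val 1 0) * u.val 0 0 +
        (u.val 1 0 * u.val 0 1 + u.val 1 1 * u.val 1 1) * u.val 1 0 = 0 ∧
      (u.val 1 0 * u.val 0 0 + u.val 1 1 * u.val 1 0) * u.val 0 1 +
        (u.val 1 0 * u.val 0 1 + u.val 1 1 * u.val 1 1) * u.val 1 1 = 1 := by
  have e := congrArg Units.val h
  rw [Units.val_pow_eq_pow_val, Units.val_one, pow_succ, sq] at e
  have e00 := congrFun (congrFun e 0) 0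
  have e01 := congrFun (congrFun e 0) 1
  have e10 := congrFun (congrFun e 1) 0
  have e11 := congrFun (congrFun e 1) 1
  simp [Matrix.mul_apply, Fin.sum_univ_two] at e00 e01 e10 e11
  exact ⟨e00, e01, e10, e11⟩

/-- An element of order three fixing a column of `P` is unipotent in that basis. -/
theorem conj_fixed_col (P : GL (Fin 2) (ZMod 3)) {z : GL (Fin 2) (ZMod 3)} (hz3 : z ^ 3 = 1)
    (hz1 : z ≠ 1) (k : Fin 2) (hk : z.val *ᵥ (fun i => P.val i k) = (fun i => P.val i k)) :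
    (k = 0 → ∃ x, x ≠ 0 ∧ P⁻¹ * z * P = upperOne x) ∧
      (k = 1 → ∃ x, x ≠ 0 ∧ P⁻¹ * z * P = lowerOne x) := by
  set A := P⁻¹ * z * P with hA
  have hA3 : A ^ 3 = 1 := by
    have e : A = P⁻¹ * z * P⁻¹⁻¹ := by rw [inv_inv]
    rw [e, conj_pow, hz3, mul_one, mul_inv_cancel]
  have hA1 : A ≠ 1 := fun e => hz1 (conj_eq_one_iff.1 (by rwa [inv_inv] : P⁻¹ * z * P⁻¹⁻¹ = 1))
  obtain ⟨d1, d2, d3, d4⟩ := cube_entries hA3
  obtain ⟨k0, k1⟩ := unipotent_cases _ _ _ _ d1 d2 d3 d4 fun h => hA1 (Units.ext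
    (Matrix.ext fun i j => by
      fin_cases i <;> fin_cases j <;> simp [h.1, h.2.1, h.2.2.1, h.2.2.2]))
  have hcol : A.val *ᵥ (Pi.single k 1) = Pi.single k 1 := by
    rw [hA, Units.val_mul, Units.val_mul, ← mulVec_mulVec, ← mulVec_mulVec, mulVec_single_one,
      show z.val *ᵥ P.val.col k = P.val.col k from hk, ← mulVec_single_one, mulVec_mulVec,
      Units.inv_mul, one_mulVec]
  rw [mulVec_single_one] at hcol
  constructor
  · rintro rfl
    have a0 : A.val 0 0 = 1 := by simpa using congrFun hcol 0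
    have c0 : A.val 1 0 = 0 := by simpa using congrFun hcol 1
    obtain ⟨hb, hd⟩ := k0 a0 c0
    exact ⟨A.val 0 1, hb, Units.ext (Matrix.ext fun i j => by
      fin_cases i <;> fin_cases j <;> simp [upperOne, a0, c0, hd])⟩
  · rintro rfl
    have b0 : A.val 0 1 = 0 := by simpa using congrFun hcol 0
    have d0 : A.val 1 1 = 1 := by simpa using congrFun hcol 1
    obtain ⟨hc, ha⟩ := k1 b0 d0
    exact ⟨A.val 1 0, hc, Units.ext (Matrix.ext fun i j => by
      fin_cases i <;> fin_cases j <;> simp [lowerOne, b0, d0, ha])⟩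

/-- **Two elements of order three with different fixed lines generate `SL₂(𝔽₃)`.** -/
theorem sl_or_fixed_line (h3 : 3 ∣ Nat.card H) :
    (∀ M : GL (Fin 2) (ZMod 3), (M : Matrix (Fin 2) (Fin 2) (ZMod 3)).det = 1 → M ∈ H) ∨
      ∃ v : Fin 2 → ZMod 3, v ≠ 0 ∧ ∀ g ∈ H, ∃ a : ZMod 3,
        (g : Matrix (Fin 2) (Fin 2) (ZMod 3)) *ᵥ v = a • v := by
  obtain ⟨⟨u, huH⟩, hu⟩ := exists_prime_orderOf_dvd_card' 3 h3
  rw [Subgroup.orderOf_mk] at hu
  have hu3 : u ^ 3 = 1 := orderOf_dvd_iff_pow_eq_one.1 hu.dvd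
  have hu1 : u ≠ 1 := fun e => by rw [e, orderOf_one] at hu; norm_num at hu
  obtain ⟨c1, c2, c3, c4⟩ := cube_entries hu3
  obtain ⟨v0, v1, hv, f0, f1⟩ := exists_fixed_of_cube _ _ _ _ c1 c2 c3 c4
  by_cases hall : ∀ g ∈ H, ∃ a : ZMod 3,
      (g : Matrix (Fin 2) (Fin 2) (ZMod 3)) *ᵥ ![v0, v1] = a • ![v0, v1]
  · exact Or.inr ⟨![v0, v1], fun e => hv ⟨congrFun e 0, congrFun e 1⟩, hall⟩
  push Not at hall
  obtain ⟨g, hgH, hg⟩ := hall
  set w0 := g.val 0 0 * v0 + g.val 0 1 * v1 with hw0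
  set w1 := g.val 1 0 * v0 + g.val 1 1 * v1 with hw1
  have hD : v0 * w1 - v1 * w0 ≠ 0 := fun e => by
    obtain ⟨x, hx0, hx1⟩ := proportional v0 v1 w0 w1 hv e
    refine hg x (funext fun i => ?_)
    fin_cases i <;> simp [Matrix.mulVec, dotProduct, Fin.sum_univ_two] <;>
      first
        | exact hw0 ▸ hx0
        | exact hw1 ▸ hx1
  -- the basis of the two fixed lines
  let P : GL (Fin 2) (ZMod 3) := GeneralLinearGroup.mkOfDetNeZero !![v0, w0; v1, w1]
    (by rw [det_fin_two_of, mul_comm w0 v1]; exact hD)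
  have hPval : P.val = !![v0, w0; v1, w1] := rfl
  set u' := g * u * g⁻¹ with hu'
  have hu'3 : u' ^ 3 = 1 := by rw [hu', conj_pow, hu3, mul_one, mul_inv_cancel]
  have hu'1 : u' ≠ 1 := fun e => hu1 (conj_eq_one_iff.1 e)
  have hfix := fun {z : GL (Fin 2) (ZMod 3)} (h : z ^ 3 = 1) (h' : z ≠ 1) k hk =>
    conj_fixed_col P h h' k hk
  obtain ⟨x, hx, hxU⟩ := (hfix hu3 hu1 0 (funext fun i => by
    fin_cases i <;> simp [hPval, Matrix.mulVec, dotProduct, Fin.sum_univ_two, f0, f1])).1 rfl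
  have hgv : g.val *ᵥ ![v0, v1] = ![w0, w1] := funext fun i => by
    fin_cases i <;> simp [Matrix.mulVec, dotProduct, Fin.sum_univ_two, hw0, hw1]
  have huv : u.val *ᵥ ![v0, v1] = ![v0, v1] := funext fun i => by
    fin_cases i <;> simp [Matrix.mulVec, dotProduct, Fin.sum_univ_two, f0, f1]
  obtain ⟨y, hy, hyL⟩ := (hfix hu'3 hu'1 1 (by
    rw [show (fun i => P.val i 1) = ![w0, w1] from funext fun i => by fin_cases i <;> simp [hPval],
      ← hgv, mulVec_mulVec, hu', Units.val_mul, Units.val_mul, mul_assoc, Units.inv_mul, mul_one,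
      ← mulVec_mulVec, huv])).2 rfl
  have hu'H : u' ∈ H := mul_mem (mul_mem hgH huH) (inv_mem hgH)
  refine Or.inl fun M hM => ?_
  have hmem : ∀ z ∈ H, P⁻¹ * z * P ∈ H.comap (MulAut.conj P).toMonoidHom := fun z hz => by
    simpa [Subgroup.mem_comap, MulAut.conj_apply, mul_assoc] using hz
  have := mem_of_unipotent hx hy (hxU ▸ hmem u huH) (hyL ▸ hmem u' hu'H) (P⁻¹ * M * P)
    (by rw [Units.val_mul, Units.val_mul, det_units_conj', hM])
  simpa [Subgroup.mem_comap, MulAut.conj_apply, mul_assoc] using this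

/-- With an element of determinant `-1`, the whole group. -/
theorem eq_top_or_fixed_line (hdet : ∃ g ∈ H, (g : Matrix (Fin 2) (Fin 2) (ZMod 3)).det = -1)
    (h3 : 3 ∣ Nat.card H) : H = ⊤ ∨
      ∃ v : Fin 2 → ZMod 3, v ≠ 0 ∧ ∀ g ∈ H, ∃ a : ZMod 3,
        (g : Matrix (Fin 2) (Fin 2) (ZMod 3)) *ᵥ v = a • v := by
  refine (sl_or_fixed_line h3).imp_left fun hsl => (Subgroup.eq_top_iff' H).2 fun M => ?_
  obtain ⟨g, hg, hdet⟩ := hdet
  have hd : ∀ u : ZMod 3, u ≠ 0 → u = 1 ∨ u = -1 := by decide +kernel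
  rcases hd _ (M.det.ne_zero) with h | h
  · exact hsl M h
  · have e : M = g * (g⁻¹ * M) := (mul_inv_cancel_left _ _).symm
    rw [e]
    refine mul_mem hg (hsl _ ?_)
    have h1 : ((g⁻¹ : GL (Fin 2) (ZMod 3)) : Matrix (Fin 2) (Fin 2) (ZMod 3)).det *
        (g : Matrix (Fin 2) (Fin 2) (ZMod 3)).det = 1 := by
      rw [← det_mul, Units.inv_mul, det_one]
    rw [hdet] at h1
    rw [Units.val_mul, det_mul, show (M : Matrix (Fin 2) (Fin 2) (ZMod 3)).det = -1 from h]
    exact h1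

end FA.SerreThree
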