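import Fermat.Agent.SerreThree.Fields
import Fermat.Agent.SerreThree.Group
import Fermat.Prelude.Def_GaloisRep_ComplexConjugation

/-!
# Serre's theorem at three

A homomorphism `G_ℚ → GL₂(𝔽₃)` with open kernel, unramified outside `3` and with nontrivial
determinant fixes a line.
-/

set_option autoImplicit false
set_option linter.unusedSectionVars false
set_option linter.style.haveILetI false

noncomputable section

open Matrix

local notation "Qb" => AlgebraicClosure ℚ
local notation "GQ" => AlgebraicClosure ℚ ≃ₐ[ℚ] AlgebraicClosure ℚ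

namespace FA.SerreThree

/-- The sign of a unit modulo three. -/
def signThree : (ZMod 3)ˣ →* ℤˣ where
  toFun u := if u = 1 then 1 else -1
  map_one' := if_pos rfl
  map_mul' := by decide +kernel

theorem signThree_eq_one : ∀ u : (ZMod 3)ˣ, signThree u = 1 ↔ u = 1 := by decide +kernel

theorem signThree_inj {u v : (ZMod 3)ˣ} (h : signThree u = signThree v) : u = v := by
  revert h u v
  decide +kernel

theorem exists_sqrt_neg_three : ∃ s : Qb, s ^ 2 = -3 := IsAlgClosed.exists_pow_nat_eq _ two_pos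

/-- Complex conjugation negates a square root of `-3`. -/
theorem complexConjugation_sqrt {s : Qb} (hs : s ^ 2 = -3) : complexConjugation s = -s := by
  have h2 : complexConjugation s ^ 2 = s ^ 2 := by rw [← map_pow, hs, map_neg, map_ofNat]
  rcases sq_eq_sq_iff_eq_or_eq_neg.1 h2 with h | h
  · exfalso
    have h1 := congrArg complexEmbedding h
    rw [complexEmbedding_complexConjugation] at h1
    obtain ⟨r, hr⟩ := Complex.conj_eq_iff_real.1 h1
    have h3 := congrArg complexEmbedding hs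
    rw [map_pow, hr, map_neg, map_ofNat] at h3
    have h4 : r ^ 2 = -3 := by exact_mod_cast h3
    nlinarith [sq_nonneg r]
  · exact h

/-- The determinant of a representation with values in `GL₂(𝔽₃)` as a sign. -/
def detSign (ρ : GQ →* GL (Fin 2) (ZMod 3)) : GQ →* ℤˣ :=
  signThree.comp (Matrix.GeneralLinearGroup.det.comp ρ)

variable {ρ : GQ →* GL (Fin 2) (ZMod 3)} (hopen : IsOpen (ρ.ker : Set GQ))
  (hun : ∀ q : ℕ, q.Prime → q ≠ 3 → ∀ A : ValuationSubring Qb, A.LiesOverPrime q →
    A.inertiaSubgroupIn ℚ ≤ ρ.ker)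

include hopen hun in
/-- The field cut out by `ρ`. -/
theorem exists_field : ∃ L : IntermediateField ℚ Qb, FiniteDimensional ℚ L ∧ IsGalois ℚ L ∧
    L.fixingSubgroup = ρ.ker ∧ UnramifiedOutsideThree L := by
  haveI := FA.EC.isGalois_algebraicClosure
  set L := IntermediateField.fixedField ρ.ker
  have hL : L.fixingSubgroup = ρ.ker :=
    InfiniteGalois.fixingSubgroup_fixedField ⟨ρ.ker, Subgroup.isClosed_of_isOpen ρ.ker hopen⟩
  exact ⟨L, (InfiniteGalois.isOpen_iff_finite L).mp (by rw [hL]; exact hopen),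
    (InfiniteGalois.normal_iff_isGalois L).mp (by rw [hL]; infer_instance), hL,
    fun q hq h3 A hA => hL ▸ hun q hq h3 A hA⟩

include hopen hun in
/-- A nontrivial sign character factoring through `ρ` is that of `√-3`. -/
theorem sign_char (χ : GQ →* ℤˣ) (hχ : ∀ σ ∈ ρ.ker, χ σ = 1) :
    (∀ σ, χ σ = 1) ∨ ∀ σ, ∀ s : Qb, s ^ 2 = -3 → σ s = ((χ σ : ℤ) : Qb) * s := by
  obtain ⟨L, hfd, hgal, hL, hunr⟩ := exists_field hopen hun
  exact quad_rat hunr χ fun σ hσ => hχ σ (hL ▸ hσ)

include hopen hun in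
/-- The determinant is the character of `√-3`. -/
theorem detSign_sqrt {σ₀ : GQ} (h₀ : Matrix.GeneralLinearGroup.det (ρ σ₀) ≠ 1) (σ : GQ) {s : Qb}
    (hs : s ^ 2 = -3) : σ s = ((detSign ρ σ : ℤ) : Qb) * s := by
  rcases sign_char hopen hun (detSign ρ) (fun σ hσ => by
    simp [detSign, MonoidHom.mem_ker.1 hσ]) with h | h
  · exact absurd ((signThree_eq_one _).1 (h σ₀)) h₀
  · exact h σ s hs

include hopen hun in
/-- **The image is not all of `GL₂(𝔽₃)`.** -/
theorem not_surjective : ¬ Function.Surjective ρ := by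
  intro hsurj
  obtain ⟨L, hfd, hgal, hL, hunr⟩ := exists_field hopen hun
  obtain ⟨σd, hσd⟩ := hsurj (GeneralLinearGroup.mkOfDetNeZero !![1, 0; 0, -1]
    (by rw [det_fin_two_of]; decide))
  have hd0 : Matrix.GeneralLinearGroup.det (ρ σd) ≠ 1 := fun e => by
    have := congrArg Units.val e
    rw [hσd] at this
    simp [GeneralLinearGroup.mkOfDetNeZero, det_fin_two_of] at this
    exact absurd this (by decide)
  obtain ⟨s, hs⟩ := exists_sqrt_neg_three
  have hs0 : s ≠ 0 := fun e => by rw [e] at hs; norm_num at hs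
  set ζ : Qb := (-1 + s) / 2 with hζ_def
  have hζ3 : ζ ^ 3 = 1 := by
    rw [hζ_def, div_pow, div_eq_iff (pow_ne_zero 3 two_ne_zero)]
    linear_combination (s - 3) * hs
  have hζ1 : ζ ≠ 1 := fun e => by
    rw [hζ_def, div_eq_iff two_ne_zero] at e
    have e3 : s = 3 := by linear_combination e
    rw [e3] at hs
    norm_num at hs
  have hζ : IsPrimitiveRoot ζ 3 := by
    rw [← orderOf_eq_prime hζ3 hζ1]
    exact IsPrimitiveRoot.orderOf ζ
  have hdet : ∀ σ : GQ, σ ζ = ζ ^ ((ρ σ).val.det).val := fun σ => by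
    have hcase : ∀ u : (ZMod 3)ˣ,
        ((signThree u : ℤ) = 1 ∧ (u : ZMod 3).val = 1) ∨
          ((signThree u : ℤ) = -1 ∧ (u : ZMod 3).val = 2) := by decide +kernel
    have h := detSign_sqrt hopen hun hd0 σ hs
    show σ ζ = ζ ^ ((Matrix.GeneralLinearGroup.det (ρ σ) : (ZMod 3)ˣ) : ZMod 3).val
    rcases hcase (Matrix.GeneralLinearGroup.det (ρ σ)) with ⟨e1, e2⟩ | ⟨e1, e2⟩ <;>
      simp only [detSign, MonoidHom.comp_apply] at h <;>
      rw [e1] at h <;> rw [e2, hζ_def, map_div₀, map_add, map_neg, map_one, map_ofNat, h]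
    · simp
    · rw [div_pow, div_eq_div_iff two_ne_zero (pow_ne_zero 2 two_ne_zero)]
      push_cast
      linear_combination -(2 : Qb) * hs
  -- the cocycle of the cosets of a Sylow two-subgroup
  let Ψ : GL (Fin 2) (ZMod 3) → ZMod 3 := fun M =>
    psi (M.val 0 0) (M.val 0 1) (M.val 1 0) (M.val 1 1)
  have hΨ : ∀ M N : GL (Fin 2) (ZMod 3), Ψ (M * N) = Ψ M + M.val.det * Ψ N := fun M N => by
    have hM := M.det.ne_zero
    have hN := N.det.ne_zero
    rw [GeneralLinearGroup.val_det_apply, det_fin_two] at hM hN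
    simp only [Ψ, Units.val_mul, Matrix.mul_apply, Fin.sum_univ_two, det_fin_two]
    exact psi_mul _ _ _ _ _ _ _ _ hM hN
  obtain ⟨σU, hσU⟩ := hsurj (upperOne 1)
  obtain ⟨t, htL, ht3, htfix⟩ := exists_cubeRoot_three hunr hζ
    (fun σ => FA.LocalDef.zp hζ (Ψ (ρ σ)))
    (fun σ => by rw [FA.LocalDef.zp_apply, ← pow_mul, mul_comm, pow_mul, hζ3, one_pow])
    (fun g h => by
      rw [map_mul, hΨ, AddChar.map_add_eq_mul, FA.LocalDef.map_zp hζ g (hdet g),
        ZMod.natCast_zmod_val])
    (fun σ hσ => by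
      rw [hL] at hσ
      rw [MonoidHom.mem_ker.1 hσ]
      exact (congrArg _ (show Ψ 1 = 0 by decide +kernel)).trans (AddChar.map_zero_eq_one _))
    (σ₀ := σU) (by
      rw [hdet, hσU, show ((upperOne 1).val.det).val = 1 by decide +kernel, pow_one])
    (by
      rw [hσU]
      intro e
      exact absurd (FA.LocalDef.zp_injective hζ (e.trans (AddChar.map_zero_eq_one _).symm))
        (by decide +kernel))
  have hstab : ∀ σ : GQ, σ t = t ↔
      sylowTwo ((ρ σ).val 0 0) ((ρ σ).val 0 1) ((ρ σ).val 1 0) ((ρ σ).val 1 1) = true := fun σ => by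
    rw [htfix, ← psi_eq_zero]
    exact ⟨fun e => FA.LocalDef.zp_injective hζ (e.trans (AddChar.map_zero_eq_one _).symm),
      fun e => (congrArg _ e).trans (AddChar.map_zero_eq_one _)⟩
  -- its second quadratic character
  let b : GQ → ZMod 2 := fun σ =>
    chi ((ρ σ).val 0 0) ((ρ σ).val 0 1) ((ρ σ).val 1 0) ((ρ σ).val 1 1)
  have hb : ∀ σ τ : GQ, σ t = t → τ t = t → b (σ * τ) = b σ + b τ := fun σ τ hσ hτ => by
    simp only [b, map_mul, Units.val_mul, Matrix.mul_apply, Fin.sum_univ_two]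
    exact chi_mul _ _ _ _ _ _ _ _ ((hstab σ).1 hσ) ((hstab τ).1 hτ)
  obtain ⟨σj, hσj⟩ := hsurj (GeneralLinearGroup.mkOfDetNeZero !![1, 1; 1, -1]
    (by rw [det_fin_two_of]; decide))
  have hj : σj t = t := (hstab σj).2 (by rw [hσj]; decide +kernel)
  have hbj : b σj = 1 := by simp only [b, hσj]; decide +kernel
  rcases quad_cubic hunr htL ht3 b hb (fun σ hσ => by
    rw [hL] at hσ
    simp only [b, MonoidHom.mem_ker.1 hσ]
    decide +kernel) with h | h
  · have := h σj hj
    rw [hbj] at this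
    exact one_ne_zero this
  · have h1 := h σj hj s hs
    rw [hbj, detSign_sqrt hopen hun hd0 σj hs] at h1
    have e : (detSign ρ σj : ℤ) = 1 := by
      rw [show detSign ρ σj = 1 from (signThree_eq_one _).2 (Units.ext (by
        rw [MonoidHom.comp_apply, GeneralLinearGroup.val_det_apply, hσj]; decide +kernel))]
      rfl
    rw [e] at h1
    simp only [Int.cast_one, one_mul, ZMod.val_one, pow_one, neg_one_mul] at h1
    exact hs0 (self_eq_neg.1 h1)

include hopen hun in
/-- **An image of two-power order is generated by complex conjugation.** -/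
theorem range_eq_zpowers {k : ℕ} (hk : Nat.card ρ.range = 2 ^ k) (σ : GQ) :
    ρ σ = 1 ∨ ρ σ = ρ complexConjugation := by
  set c : ρ.range := ρ.rangeRestrict complexConjugation with hc_def
  have hc2 : c ^ 2 = 1 := by rw [hc_def, ← map_pow, complexConjugation_sq, map_one]
  obtain ⟨n, hn, hH⟩ : ∃ n ≤ 1, Nat.card (Subgroup.zpowers c) = 2 ^ n := by
    obtain ⟨n, hn, h⟩ := (Nat.dvd_prime_pow Nat.prime_two).1
      (show orderOf c ∣ 2 ^ 1 by rw [pow_one]; exact orderOf_dvd_of_pow_eq_one hc2)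
    exact ⟨n, hn, by rw [Nat.card_zpowers, h]⟩
  rcases le_or_gt k n with hk1 | hk1
  · have hle : Nat.card ρ.range ≤ Nat.card (Subgroup.zpowers c) := by
      rw [hk, hH]; exact Nat.pow_le_pow_right two_pos hk1
    have htop : Subgroup.zpowers c = ⊤ := Subgroup.eq_top_of_card_eq _
      (le_antisymm (Subgroup.card_le_card_group _) hle)
    obtain ⟨i, hi⟩ := Subgroup.mem_zpowers_iff.1 (htop ▸ Subgroup.mem_top (ρ.rangeRestrict σ))
    rcases Int.even_or_odd' i with ⟨m, rfl | rfl⟩
    · left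
      rw [_root_.zpow_mul, zpow_ofNat, hc2, _root_.one_zpow] at hi
      exact (congrArg Subtype.val hi).symm
    · right
      rw [_root_.zpow_add_one, _root_.zpow_mul, zpow_ofNat, hc2, _root_.one_zpow, one_mul] at hi
      exact (congrArg Subtype.val hi).symm
  · exfalso
    obtain ⟨M, hM, hcM⟩ := Sylow.exists_subgroup_card_pow_prime_le 2 (n := n) (m := k - 1)
      (show 2 ^ (k - 1) ∣ Nat.card ρ.range by rw [hk]; exact pow_dvd_pow 2 (Nat.sub_le k 1))
      (Subgroup.zpowers c) hH (by omega)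
    have hidx : M.index = 2 := by
      have h := M.card_mul_index
      rw [hM, hk] at h
      have h2 : 2 ^ k = 2 ^ (k - 1) * 2 := by rw [← pow_succ]; congr 1; omega
      rw [h2] at h
      exact Nat.eq_of_mul_eq_mul_left (pow_pos two_pos _) h
    classical
    let χ : GQ →* ℤˣ :=
      { toFun := fun g => if ρ.rangeRestrict g ∈ M then 1 else -1
        map_one' := by simp
        map_mul' := fun g g' => by
          have h := Subgroup.mul_mem_iff_of_index_two hidx (a := ρ.rangeRestrict g)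
            (b := ρ.rangeRestrict g')
          rw [map_mul]
          by_cases h1 : ρ.rangeRestrict g ∈ M <;> by_cases h2 : ρ.rangeRestrict g' ∈ M <;>
            simp [h, h1, h2] }
    have hχc : χ complexConjugation = 1 := if_pos (hcM (Subgroup.mem_zpowers c))
    rcases sign_char hopen hun χ (fun g hg => if_pos (by
      rw [show ρ.rangeRestrict g = 1 from Subtype.ext (MonoidHom.mem_ker.1 hg)]
      exact one_mem M)) with h | h
    · have htop : M = ⊤ := (Subgroup.eq_top_iff' M).2 fun x => by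
        obtain ⟨g, rfl⟩ := ρ.rangeRestrict_surjective x
        by_contra hx
        exact absurd ((if_neg hx).symm.trans (h g)) (by decide)
      rw [htop, Subgroup.index_top] at hidx
      norm_num at hidx
    · obtain ⟨s, hs⟩ := exists_sqrt_neg_three
      have h1 := h complexConjugation s hs
      rw [complexConjugation_sqrt hs, hχc, Units.val_one, Int.cast_one, one_mul, neg_eq_self] at h1
      rw [h1] at hs
      norm_num at hs

include hopen hun in
/-- An image of order prime to three fixes a line. -/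
theorem stable_line_of_not_three_dvd (h3 : ¬ 3 ∣ Nat.card ρ.range) :
    ∃ v : Fin 2 → ZMod 3, v ≠ 0 ∧ ∀ σ, ∃ a : ZMod 3,
      (ρ σ : Matrix (Fin 2) (Fin 2) (ZMod 3)) *ᵥ v = a • v := by
  have h48 : Nat.card ρ.range ∣ 2 ^ 4 * 3 := by
    have h := Subgroup.card_subgroup_dvd_card ρ.range
    rwa [natCard_gl] at h
  obtain ⟨k, -, hk⟩ := (Nat.dvd_prime_pow Nat.prime_two).1
    (((Nat.prime_three.coprime_iff_not_dvd.2 h3).symm).dvd_of_dvd_mul_right h48)
  set C := (ρ complexConjugation : Matrix (Fin 2) (Fin 2) (ZMod 3)) with hC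
  have hCC : C * C = 1 := by
    rw [hC, ← Units.val_mul, ← map_mul, complexConjugation_mul_self, map_one, Units.val_one]
  set e : Fin 2 → ZMod 3 := Pi.single 0 1
  have he : e ≠ 0 := fun h => (one_ne_zero : (1 : ZMod 3) ≠ 0) (by simpa [e] using congrFun h 0)
  obtain ⟨v, hv, a, ha⟩ : ∃ v : Fin 2 → ZMod 3, v ≠ 0 ∧ ∃ a : ZMod 3, C *ᵥ v = a • v := by
    by_cases hw : e + C *ᵥ e = 0
    · exact ⟨e, he, -1, by rw [neg_one_smul]; exact eq_neg_of_add_eq_zero_right hw⟩
    · exact ⟨e + C *ᵥ e, hw, 1, by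
        rw [mulVec_add, mulVec_mulVec, hCC, one_mulVec, one_smul, add_comm]⟩
  refine ⟨v, hv, fun σ => ?_⟩
  rcases range_eq_zpowers hopen hun hk σ with h | h
  · exact ⟨1, by rw [h, Units.val_one, one_mulVec, one_smul]⟩
  · exact ⟨a, by rw [h]; exact ha⟩

include hopen hun in
/-- **Serre's theorem at three.** -/
theorem exists_stable_line {σ₀ : GQ} (h₀ : Matrix.GeneralLinearGroup.det (ρ σ₀) ≠ 1) :
    ∃ v : Fin 2 → ZMod 3, v ≠ 0 ∧ ∀ σ, ∃ a : ZMod 3,
      (ρ σ : Matrix (Fin 2) (Fin 2) (ZMod 3)) *ᵥ v = a • v := by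
  have hd : ∀ u : (ZMod 3)ˣ, u ≠ 1 → (u : ZMod 3) = -1 := by decide +kernel
  by_cases h3 : 3 ∣ Nat.card ρ.range
  · rcases eq_top_or_fixed_line ⟨ρ σ₀, MonoidHom.mem_range.2 ⟨σ₀, rfl⟩, hd _ h₀⟩ h3
      with h | ⟨v, hv, h⟩
    · exact absurd (MonoidHom.range_eq_top.1 h) (not_surjective hopen hun)
    · exact ⟨v, hv, fun σ => h _ (MonoidHom.mem_range.2 ⟨σ, rfl⟩)⟩
  · exact stable_line_of_not_three_dvd hopen hun h3

include hopen hun in
/-- **The semisimplification is `1 ⊕ det`.** -/
theorem trace_eq {σ₀ : GQ} (h₀ : Matrix.GeneralLinearGroup.det (ρ σ₀) ≠ 1) (σ : GQ) :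
    (ρ σ : Matrix (Fin 2) (Fin 2) (ZMod 3)).trace =
      1 + (ρ σ : Matrix (Fin 2) (Fin 2) (ZMod 3)).det := by
  obtain ⟨v, hv, hline⟩ := exists_stable_line hopen hun h₀
  choose a ha using hline
  have ha0 : ∀ g, a g ≠ 0 := fun g e => hv (by
    have h := ha g
    rw [e, zero_smul] at h
    calc v = ((ρ g)⁻¹).val *ᵥ ((ρ g).val *ᵥ v) := by rw [mulVec_mulVec, Units.inv_mul, one_mulVec]
      _ = 0 := by rw [h, mulVec_zero])
  have huniq : ∀ x y : ZMod 3, x • v = y • v → x = y := fun x y h => by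
    by_contra hne
    refine hv (smul_right_injective _ (sub_ne_zero.2 hne) ?_)
    show (x - y) • v = (x - y) • 0
    rw [sub_smul, h, sub_self, smul_zero]
  let χ : GQ →* ℤˣ := signThree.comp
    { toFun := fun g => Units.mk0 (a g) (ha0 g)
      map_one' := Units.ext (huniq _ _ (by
        show a 1 • v = (1 : ZMod 3) • v
        rw [← ha, map_one, Units.val_one, one_mulVec, one_smul]))
      map_mul' := fun g h => Units.ext (huniq _ _ (by
        show a (g * h) • v = (a g * a h) • v
        rw [← ha, map_mul, Units.val_mul, ← mulVec_mulVec, ha h, mulVec_smul, ha g, smul_smul,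
          mul_comm])) }
  have hker : ∀ g ∈ ρ.ker, χ g = 1 := fun g hg => (signThree_eq_one _).2 (Units.ext (huniq _ _ (by
    show a g • v = (1 : ZMod 3) • v
    rw [← ha, MonoidHom.mem_ker.1 hg, Units.val_one, one_mulVec, one_smul])))
  have hcp : a σ * a σ - ((ρ σ).val 0 0 + (ρ σ).val 1 1) * a σ +
      ((ρ σ).val 0 0 * (ρ σ).val 1 1 - (ρ σ).val 0 1 * (ρ σ).val 1 0) = 0 := by
    have h := ha σ
    have h0 := congrFun h 0
    have h1 := congrFun h 1
    simp only [mulVec, dotProduct, Fin.sum_univ_two, Pi.smul_apply, smul_eq_mul] at h0 h1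
    exact eigen_charpoly _ _ _ _ (v 0) (v 1) (a σ)
      (fun e => hv (funext fun i => by fin_cases i; exacts [e.1, e.2])) h0 h1
  have hval : a σ = 1 ∨ a σ = (ρ σ).val.det := by
    rcases sign_char hopen hun χ hker with h | h
    · exact Or.inl (congrArg Units.val ((signThree_eq_one _).1 (h σ)))
    · obtain ⟨s, hs⟩ := exists_sqrt_neg_three
      have hs0 : s ≠ 0 := fun e => by rw [e] at hs; norm_num at hs
      have h2 := mul_right_cancel₀ hs0 ((h σ s hs).symm.trans (detSign_sqrt hopen hun h₀ σ hs))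
      exact Or.inr (congrArg Units.val (signThree_inj (Units.ext (Int.cast_injective h2))))
  rw [trace_fin_two, det_fin_two]
  rw [det_fin_two] at hval
  rcases hval with e | e <;> rw [e] at hcp
  · linear_combination -hcp
  · have key : ∀ tr d : ZMod 3, d ≠ 0 → d * d - tr * d + d = 0 → tr = 1 + d := by decide +kernel
    refine key _ _ ?_ hcp
    rw [← e]
    exact ha0 σ

end FA.SerreThree

end
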