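import Fermat.Agent.SerreThree.RealCubic
import Fermat.Agent.SerreThree.Main
import Fermat.Agent.OpenImageJ.KWTwo

/-!
# The representations of determinant one unramified outside three

A cubic character of `G_ℚ` unramified outside `3` cuts out the real subfield of the ninth roots of
unity, over which a quadratic character unramified outside `3` needs `√-3`. So `SL₂(𝔽₃)` is no
image of a representation unramified outside `3`.
-/

set_option autoImplicit false
set_option linter.unusedSectionVars false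
set_option linter.style.haveILetI false

noncomputable section

open NumberField Matrix

local notation "Qb" => AlgebraicClosure ℚ
local notation "GQ" => AlgebraicClosure ℚ ≃ₐ[ℚ] AlgebraicClosure ℚ

namespace FA.SerreThree

variable {L : IntermediateField ℚ Qb} [FiniteDimensional ℚ L] [IsGalois ℚ L]
  (hL : UnramifiedOutsideThree L)

section embedded

variable {K : Type*} [Field K] [NumberField K] (ι : K →ₐ[ℚ] Qb) (hι : ∀ k, ι k ∈ L)

/-- The map of rings of integers of an embedding into `L`. -/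
def intHom : 𝓞 K →+* 𝓞 L :=
  RingOfIntegers.mapRingHom (ι.toRingHom.codRestrict L.toSubfield hι)

theorem dvd_of_intHom_dvd {x z : 𝓞 K} (h : intHom ι hι x ∣ intHom ι hι z) : x ∣ z := by
  have : NumberField L := { }
  obtain ⟨w, hw⟩ := h
  have hwc : ι z = ι x * ((w : L) : Qb) :=
    congrArg (fun y : 𝓞 L => ((y : L) : Qb)) hw
  rcases eq_or_ne x 0 with rfl | hx
  · simp only [map_zero, zero_mul] at hwc
    rw [RingOfIntegers.coe_eq_zero_iff.1 (ι.injective (hwc.trans (map_zero ι).symm))]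
  have hxK : (x : K) ≠ 0 := RingOfIntegers.coe_ne_zero_iff.2 hx
  have hint : IsIntegral ℤ ((z : K) / (x : K)) := by
    rw [← isIntegral_algHom_iff (ι.restrictScalars ℤ) ι.injective]
    show IsIntegral ℤ (ι ((z : K) / (x : K)))
    rw [map_div₀, hwc, mul_div_assoc, mul_div_cancel₀ _ (by simpa using hxK)]
    exact (RingOfIntegers.isIntegral_coe w).map (L.val.restrictScalars ℤ)
  exact ⟨⟨_, hint⟩, RingOfIntegers.ext (mul_div_cancel₀ (z : K) hxK).symm⟩

include hL hι in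
/-- A square root in `L` of an element of `K` which is a square modulo two is one modulo four. -/
theorem four_dvd_of_sqrt [IsPrincipalIdealRing (𝓞 K)] {a r : 𝓞 K} (h2 : 2 ∣ a - r ^ 2) {z : Qb}
    (hz : z ∈ L) (hza : z ^ 2 = ι (a : K)) : 4 ∣ a - r ^ 2 :=
  four_dvd_sub_sq hL (intHom ι hι) (fun _ _ h => dvd_of_intHom_dvd ι hι h) h2
    (y := ⟨z, hz⟩) (Subtype.ext hza)

include hL hι in
/-- **A quadratic character of `G_K` unramified outside three** has a Kummer generator whose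
square is a unit times at most one `τ`. -/
theorem exists_square_class [IsPrincipalIdealRing (𝓞 K)] {τ : 𝓞 K} (hτ : Prime τ)
    (hπ : ∀ π : 𝓞 K, Prime π → ¬ π ∣ τ → ∃ q : ℕ, q.Prime ∧ q ≠ 3 ∧ π ∣ (q : 𝓞 K))
    (b : GQ → ZMod 2)
    (hb : ∀ σ ρ : GQ, (∀ k, σ (ι k) = ι k) → (∀ k, ρ (ι k) = ι k) → b (σ * ρ) = b σ + b ρ)
    (hb0 : ∀ σ ∈ L.fixingSubgroup, b σ = 0) :
    ∃ (u : (𝓞 K)ˣ) (e : ℕ) (z : Qb), e < 2 ∧ z ∈ L ∧ z ≠ 0 ∧
      z ^ 2 = ι (((u : 𝓞 K) * τ ^ e : 𝓞 K) : K) ∧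
      ∀ σ : GQ, (∀ k, σ (ι k) = ι k) → σ z = (-1) ^ (b σ).val * z := by
  have : NumberField L := { }
  have hζ : IsPrimitiveRoot (-1 : Qb) 2 := IsPrimitiveRoot.neg_one 0 two_ne_zero.symm
  have hmem : ∀ σ : GQ, σ ∈ ι.fieldRange.fixingSubgroup ↔ ∀ k, σ (ι k) = ι k := fun σ =>
    ⟨fun h k => (IntermediateField.mem_fixingSubgroup_iff _ σ).1 h _
      (AlgHom.mem_fieldRange.2 ⟨k, rfl⟩), fun h => (IntermediateField.mem_fixingSubgroup_iff _ σ).2
      fun x hx => by obtain ⟨k, rfl⟩ := AlgHom.mem_fieldRange.1 hx; exact h k⟩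
  obtain ⟨y, hy0, hy⟩ := FA.LocalDef.exists_eq_div hζ ι.fieldRange.fixingSubgroup b
    (fun σ hσ ρ hρ m hm => by
      have hm1 : (m : ZMod 2) = 1 := by
        rw [map_neg, map_one] at hm
        rcases Nat.even_or_odd m with h | h
        · rw [h.neg_one_pow] at hm; norm_num at hm
        · exact (ZMod.natCast_eq_one_iff_odd).2 h
      rw [hm1, one_mul]
      exact hb σ ρ ((hmem σ).1 hσ) ((hmem ρ).1 hρ)) L fun σ _ h => hb0 σ h
  have hy' : ∀ σ : GQ, (∀ k, σ (ι k) = ι k) → σ y = (-1) ^ (b σ).val * y := fun σ hσ => by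
    rw [hy σ ((hmem σ).2 hσ), ZMod.neg_eq_self_mod_two, FA.LocalDef.zp_apply]
  have hyL : y ∈ L := mem_of_fixed L fun σ hσ => by
    rw [hy' σ fun k => (IntermediateField.mem_fixingSubgroup_iff L σ).1 hσ _ (hι k), hb0 σ hσ,
      ZMod.val_zero, pow_zero, one_mul]
  have ha : y ^ 2 ∈ ι.fieldRange := mem_of_fixed _ fun σ hσ => by
    rw [map_pow, hy' σ ((hmem σ).1 hσ), mul_pow, ← pow_mul, mul_comm _ 2, pow_mul, neg_one_sq,
      one_pow, one_mul]
  obtain ⟨k, hk⟩ := AlgHom.mem_fieldRange.1 ha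
  obtain ⟨p, d, hd, hkd⟩ := IsFractionRing.div_surjective (𝓞 K) k
  have hd0 : (d : K) ≠ 0 := RingOfIntegers.coe_ne_zero_iff.2 (nonZeroDivisors.ne_zero hd)
  have hp0 : p ≠ 0 := fun e => hy0 ((pow_eq_zero_iff two_ne_zero).1 (by
    rw [← hk, ← hkd, e]; simp))
  set y₁ := y * ι d with hy₁_def
  have hy₁ : y₁ ^ 2 = ι ((p * d : 𝓞 K) : K) := by
    rw [hy₁_def, mul_pow, ← hk, ← hkd, ← map_pow, ← map_mul]
    congr 1
    push_cast
    field_simp
  obtain ⟨u, j, g, he⟩ := exists_eq_unit_mul_pow hL (intHom ι hι)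
    (fun _ _ h => dvd_of_intHom_dvd ι hι h) hτ hπ two_ne_zero
    (mul_ne_zero hp0 (nonZeroDivisors.ne_zero hd)) (y := ⟨y₁, mul_mem hyL (hι _)⟩)
    (Subtype.ext hy₁)
  obtain ⟨m, e, hm, rfl⟩ : ∃ m e, e < 2 ∧ j = 2 * m + e :=
    ⟨j / 2, j % 2, Nat.mod_lt _ two_pos, by omega⟩
  set G : 𝓞 K := τ ^ m * g with hG
  have hpd : p * d = (u : 𝓞 K) * τ ^ e * G ^ 2 := by rw [he, hG]; ring
  have hG0 : ι (G : K) ≠ 0 := by
    rw [Ne, map_eq_zero, RingOfIntegers.coe_eq_zero_iff]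
    intro h0
    rw [h0, zero_pow two_ne_zero, mul_zero] at hpd
    exact mul_ne_zero hp0 (nonZeroDivisors.ne_zero hd) hpd
  refine ⟨u, e, y₁ / ι (G : K), hm, div_mem (mul_mem hyL (hι _)) (hι _),
    div_ne_zero (mul_ne_zero hy0 ((map_ne_zero ι).2 hd0)) hG0, ?_, fun σ hσ => ?_⟩
  · rw [div_pow, hy₁, hpd, div_eq_iff (pow_ne_zero 2 hG0), ← map_pow, ← map_mul]
    congr 1
  · rw [hy₁_def, map_div₀, map_mul, hy' σ hσ, hσ, hσ]
    ring

end embedded

theorem classTri_one : ∀ i j k : Fin 2,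
    classTri i j k (Fin.ofNat 2 1) = triMul (classTri i j k 0) (1, 1, 0) := by decide +kernel

include hL in
/-- **Over the real cubic field** a nontrivial quadratic character unramified outside `3` needs a
square root of `-3`. -/
theorem quad_real {t : Qb} (htL : t ∈ L) (ht : t ^ 3 = 3 * t - 1) (b : GQ → ZMod 2)
    (hb : ∀ σ ρ : GQ, σ t = t → ρ t = t → b (σ * ρ) = b σ + b ρ)
    (hb0 : ∀ σ ∈ L.fixingSubgroup, b σ = 0) :
    (∀ σ : GQ, σ t = t → b σ = 0) ∨ ∃ s ∈ L, s ^ 2 = (-3 : Qb) := by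
  let ι : F →ₐ[ℚ] Qb := AdjoinRoot.liftAlgHom fF (Algebra.ofId ℚ Qb) t
    (by simp [fF, ht, Polynomial.eval₂_sub, map_ofNat])
  have hιe : ι gen = t := AdjoinRoot.liftAlgHom_root _ _ _ _
  have hfix : ∀ σ : GQ, σ t = t → ∀ k : F, σ (ι k) = ι k := fun σ hσ k => by
    obtain ⟨p, q, r, rfl⟩ := exists_elF k
    simp [elF, hιe, hσ]
  have hι : ∀ k : F, ι k ∈ L := fun k => by
    obtain ⟨p, q, r, rfl⟩ := exists_elF k
    simp only [elF, map_add, map_mul, map_pow, map_ratCast, hιe]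
    exact add_mem
      (add_mem (SubfieldClass.ratCast_mem L p) (mul_mem (SubfieldClass.ratCast_mem L q) htL))
      (mul_mem (SubfieldClass.ratCast_mem L r) (pow_mem htL 2))
  obtain ⟨u, e, z, he, hzL, hz0, hz, hzσ⟩ := exists_square_class hL ι hι prime_genO_add_one
    exists_prime_number_F b (fun σ ρ h1 h2 => hb σ ρ (hιe ▸ h1 gen) (hιe ▸ h2 gen)) hb0
  obtain ⟨⟨i, j, k⟩, η, rfl⟩ := unit_classes_F u
  have hη : ι ((η : 𝓞 F) : F) ≠ 0 :=
    (map_ne_zero ι).2 (RingOfIntegers.coe_ne_zero_iff.2 η.ne_zero)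
  set w := z / ι ((η : 𝓞 F) : F)
  have hclass : triO (classTri i j k (Fin.ofNat 2 e)) =
      ((classU (i, j, k) : (𝓞 F)ˣ) : 𝓞 F) * (genO + 1) ^ e := by
    rw [coe_classU, show genO + 1 = triO (1, 1, 0) by simp [triO]; ring]
    interval_cases e
    · simp
    · rw [pow_one, triO_mul]
      congr 1
      exact classTri_one i j k
  have hw : w ^ 2 = ι ((triO (classTri i j k (Fin.ofNat 2 e)) : 𝓞 F) : F) := by
    rw [hclass, div_pow, hz, div_eq_iff (pow_ne_zero 2 hη), ← map_pow, ← map_mul]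
    congr 1
    push_cast
    ring
  have hwL : w ∈ L := div_mem hzL (hι _)
  have hall : allowedClass i j k (Fin.ofNat 2 e) := by
    by_contra hcon
    obtain ⟨r, h2, h4⟩ := exists_root_not_four i j k _ hcon
    exact h4 (four_dvd_of_sqrt hL ι hι h2 hwL hw)
  rcases hall with ⟨rfl, rfl, rfl, h0⟩ | ⟨rfl, rfl, rfl, h1⟩
  · left
    rw [h0] at hw
    have h1 : w ^ 2 = 1 := by rw [hw]; simp [classTri, triMul, triO]
    intro σ hσ
    have hwσ : σ w = (-1) ^ (b σ).val * w := by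
      rw [map_div₀, hzσ σ (hfix σ hσ), hfix σ hσ, mul_div_assoc]
    have hw0 : w ≠ 0 := div_ne_zero hz0 hη
    have hwfix : σ w = w := by rcases sq_eq_one_iff.1 h1 with e | e <;> simp [e]
    rw [hwfix, eq_comm, mul_eq_right₀ hw0] at hwσ
    by_contra hne
    have : (b σ).val = 1 := by
      have := (b σ).val_lt
      have := (ZMod.val_ne_zero (b σ)).2 hne
      omega
    rw [this, pow_one] at hwσ
    norm_num at hwσ
  · right
    rw [h1] at hw
    have hw' : w ^ 2 = -(t * (t + 1)) := by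
      rw [hw]; simp [classTri, triMul, triO, hιe]; ring
    have ht0 : t ≠ 0 := fun e => by rw [e] at ht; norm_num at ht
    have hc0 : 2 - t - t ^ 2 ≠ 0 := fun e => by
      have h' : (2 - t - t ^ 2) ^ 2 = t + 2 := by linear_combination (t + 2) * ht
      rw [e, zero_pow two_ne_zero] at h'
      have h2 : t = -2 := by linear_combination -h'
      rw [h2] at ht
      norm_num at ht
    refine ⟨w * (t + 1) / (t * (2 - t - t ^ 2)), div_mem (mul_mem hwL (add_mem htL (one_mem L)))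
      (mul_mem htL (sub_mem (sub_mem (natCast_mem L 2) htL) (pow_mem htL 2))), ?_⟩
    rw [div_pow, div_eq_iff (pow_ne_zero 2 (mul_ne_zero ht0 hc0)), mul_pow, hw']
    linear_combination (3 * t ^ 2 * (t + 2) - t) * ht

/-- A character of order three on the units modulo nine. -/
def logNine : (ZMod (3 ^ 2))ˣ →* Multiplicative (ZMod 3) where
  toFun u := Multiplicative.ofAdd (if u.val.val = 1 ∨ u.val.val = 8 then 0
    else if u.val.val = 2 ∨ u.val.val = 7 then 1 else 2)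
  map_one' := by decide +kernel
  map_mul' := by decide +kernel

/-- **A cubic character unramified outside three** cuts out `ℚ(ζ₉)⁺`. -/
theorem exists_real_root (f : GQ →* Multiplicative (ZMod 3))
    (hfL : ∀ σ ∈ L.fixingSubgroup, f σ = 1)
    (hfu : ∀ q : ℕ, q.Prime → q ≠ 3 → ∀ A : ValuationSubring Qb, A.LiesOverPrime q →
      ∀ σ ∈ A.inertiaSubgroupIn ℚ, f σ = 1) (hf : f ≠ 1) :
    ∃ t : Qb, t ∈ L ∧ t ^ 3 = 3 * t - 1 ∧ ∀ σ, σ t = t ↔ f σ = 1 := by
  obtain ⟨L₂, hL₂fd, hL₂⟩ := FA.JTorsion.exists_field_cycP 3 2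
  let g : GQ →* Multiplicative (ZMod 3) := logNine.comp (FA.ModField.cycMod 3 2)
  obtain ⟨z, hz⟩ := HasEnoughRootsOfUnity.exists_primitiveRoot Qb 9
  have hz9 : z ^ 9 = 1 := hz.pow_eq_one
  have hz6 : z ^ 6 + z ^ 3 + 1 = 0 := by
    refine (mul_eq_zero.1 (show (z ^ 3 - 1) * (z ^ 6 + z ^ 3 + 1) = 0 by
      linear_combination hz9)).resolve_left fun e => ?_
    exact hz.pow_ne_one_of_pos_of_lt (by norm_num) (by norm_num : 3 < 9) (sub_eq_zero.1 e)
  set t := z + z ^ 8 with ht_def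
  have ht : t ^ 3 = 3 * t - 1 := by
    rw [ht_def]
    linear_combination (3 * z + 3 * z ^ 8 + (z ^ 15 + z ^ 6)) * hz9 + hz6
  have hval : ∀ σ : GQ, σ z = z ^ ((FA.ModField.cycMod 3 2 σ).val.val) := fun σ => by
    obtain ⟨a, -, ha⟩ := FA.PadicImage.exists_exponent_roots σ Nat.prime_three 2
    rw [FA.ModField.coe_cycMod, FA.RT.Tate.cycP_eq_natCast ha, ZMod.val_natCast, ha z hz9]
    exact pow_eq_pow_mod a hz9
  have hg : ∀ σ : GQ, σ t = t ↔ g σ = 1 := fun σ => by
    rw [ht_def, map_add, map_pow, hval σ]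
    show _ ↔ logNine (FA.ModField.cycMod 3 2 σ) = 1
    generalize FA.ModField.cycMod 3 2 σ = u
    have hu : ∀ u : (ZMod (3 ^ 2))ˣ, (u.val.val = 1 ∧ logNine u = 1) ∨
        (u.val.val = 8 ∧ logNine u = 1) ∨ (u.val.val = 2 ∧ logNine u ≠ 1) ∨
        (u.val.val = 7 ∧ logNine u ≠ 1) ∨ (u.val.val = 4 ∧ logNine u ≠ 1) ∨
        (u.val.val = 5 ∧ logNine u ≠ 1) := by decide +kernel
    have h2 : ∀ x : Qb, x = z ^ 2 + z ^ 7 → x ≠ z + z ^ 8 := fun x hx e => by
      have hq : t ^ 2 - t - 2 = 0 := by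
        rw [ht_def]
        linear_combination (hx.symm.trans e) + (z ^ 7 + 2) * hz9
      rcases mul_eq_zero.1 (show (t - 2) * (t + 1) = 0 by linear_combination hq) with h | h
      · rw [show t = 2 by linear_combination h] at ht; norm_num at ht
      · rw [show t = -1 by linear_combination h] at ht; norm_num at ht
    have h4 : ∀ x : Qb, x = z ^ 4 + z ^ 5 → x ≠ z + z ^ 8 := fun x hx e => by
      have hq : t ^ 2 + 2 * t - 2 = 0 := by
        rw [ht_def]
        linear_combination -(hx.symm.trans e) + (z ^ 7 + 2) * hz9 + (z + z ^ 2) * hz6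
      have h1 : t = 1 := by
        have h3 : (3 : Qb) * (t - 1) = 0 := by linear_combination ht - (t - 2) * hq
        linear_combination (mul_eq_zero.1 h3).resolve_left three_ne_zero
      rw [h1] at hq; norm_num at hq
    rcases hu u with ⟨e, hl⟩ | ⟨e, hl⟩ | ⟨e, hl⟩ | ⟨e, hl⟩ | ⟨e, hl⟩ | ⟨e, hl⟩ <;> rw [e]
    · exact iff_of_true (by rw [pow_one]) hl
    · exact iff_of_true (by linear_combination z * (z ^ 54 + z ^ 45 + z ^ 36 + z ^ 27 + z ^ 18 +
        z ^ 9 + 1) * hz9) hl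
    · exact iff_of_false (h2 _ (by linear_combination z ^ 7 * hz9)) hl
    · exact iff_of_false (h2 _ (by
        linear_combination z ^ 2 * (z ^ 45 + z ^ 36 + z ^ 27 + z ^ 18 + z ^ 9 + 1) * hz9)) hl
    · exact iff_of_false (h4 _ (by
        linear_combination z ^ 5 * (z ^ 18 + z ^ 9 + 1) * hz9)) hl
    · exact iff_of_false (h4 _ (by
        linear_combination z ^ 4 * (z ^ 27 + z ^ 18 + z ^ 9 + 1) * hz9)) hl
  have hg1 : g ≠ 1 := fun e => by
    obtain ⟨σ, hσ⟩ := FA.OpenImageJ.cycMod_surjective 3 2 (ZMod.unitOfCoprime 2 (by norm_num))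
    have h := DFunLike.congr_fun e σ
    rw [MonoidHom.comp_apply, hσ, MonoidHom.one_apply] at h
    exact absurd h (by decide +kernel)
  obtain ⟨c, hc⟩ := FA.OpenImageJ.exists_eq_mul_of_unramified (p := 3) (by norm_num) f g (L ⊔ L₂)
    (fun σ hσ => ⟨hfL σ ((IntermediateField.mem_fixingSubgroup_iff L σ).2 fun x hx =>
        hσ x ((le_sup_left : L ≤ L ⊔ L₂) hx)), by
      show logNine (FA.ModField.cycMod 3 2 σ) = 1
      rw [show FA.ModField.cycMod 3 2 σ = 1 from
        Units.ext (hL₂ σ fun x hx => hσ x ((le_sup_right : L₂ ≤ L ⊔ L₂) hx)), map_one]⟩)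
    (fun l hl hl3 A hA σ hσ => ⟨hfu l hl hl3 A hA σ hσ, by
      show logNine (Units.map _ (FA.JTorsion.cycP 3 σ)) = 1
      rw [FA.JTorsion.cycP_inertia 3 hl hl3 hA hσ, map_one, map_one]⟩) hg1
  have hc0 : c ≠ 0 := fun e => hf (MonoidHom.ext fun σ =>
    Multiplicative.toAdd.injective (by rw [hc σ, e, zero_mul]; rfl))
  have hiff : ∀ σ, σ t = t ↔ f σ = 1 := fun σ => by
    rw [hg σ]
    constructor
    · intro h
      exact Multiplicative.toAdd.injective (by rw [hc σ, h]; simp)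
    · intro h
      have h' := hc σ
      rw [h] at h'
      exact Multiplicative.toAdd.injective ((mul_eq_zero.1 h'.symm).resolve_left hc0)
  exact ⟨t, mem_of_fixed L fun σ hσ => (hiff σ).2 (hfL σ hσ), ht, hiff⟩

variable {ρ : GQ →* GL (Fin 2) (ZMod 3)} (hopen : IsOpen (ρ.ker : Set GQ))
  (hun : ∀ q : ℕ, q.Prime → q ≠ 3 → ∀ A : ValuationSubring Qb, A.LiesOverPrime q →
    A.inertiaSubgroupIn ℚ ≤ ρ.ker)

include hopen hun in
/-- **`SL₂(𝔽₃)` is no image.** -/
theorem not_special_linear (hdet : ∀ σ, (ρ σ : Matrix (Fin 2) (Fin 2) (ZMod 3)).det = 1)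
    (hall : ∀ M : GL (Fin 2) (ZMod 3), (M : Matrix (Fin 2) (Fin 2) (ZMod 3)).det = 1 →
      M ∈ ρ.range) : False := by
  obtain ⟨L, hfd, hgal, hL, hunr⟩ := exists_field hopen hun
  let Ψ : GL (Fin 2) (ZMod 3) → ZMod 3 := fun M =>
    psi (M.val 0 0) (M.val 0 1) (M.val 1 0) (M.val 1 1)
  have hΨ : ∀ g h : GQ, Ψ (ρ (g * h)) = Ψ (ρ g) + Ψ (ρ h) := fun g h => by
    have hM := (ρ g).det.ne_zero
    have hN := (ρ h).det.ne_zero
    have h1 := hdet g
    rw [GeneralLinearGroup.val_det_apply, det_fin_two] at hM hN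
    rw [det_fin_two] at h1
    simp only [Ψ, map_mul, Units.val_mul, Matrix.mul_apply, Fin.sum_univ_two]
    rw [psi_mul _ _ _ _ _ _ _ _ hM hN, h1, one_mul]
  let f : GQ →* Multiplicative (ZMod 3) :=
    MonoidHom.mk' (fun σ => Multiplicative.ofAdd (Ψ (ρ σ))) fun g h => by rw [hΨ, ofAdd_add]
  have hker : ∀ σ ∈ ρ.ker, f σ = 1 := fun σ hσ => by
    show Multiplicative.ofAdd (Ψ (ρ σ)) = 1
    rw [MonoidHom.mem_ker.1 hσ]
    decide +kernel
  obtain ⟨σU, hσU⟩ := hall (upperOne 1) (by simp [upperOne, det_fin_two])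
  obtain ⟨t, htL, ht, hfix⟩ := exists_real_root (L := L) f (fun σ hσ => hker σ (hL ▸ hσ))
    (fun q hq h3 A hA σ hσ => hker σ (hun q hq h3 A hA hσ))
    (fun e => by
      have h := DFunLike.congr_fun e σU
      rw [MonoidHom.mk'_apply, hσU, MonoidHom.one_apply] at h
      revert h
      decide +kernel)
  have hstab : ∀ σ : GQ, σ t = t ↔
      sylowTwo ((ρ σ).val 0 0) ((ρ σ).val 0 1) ((ρ σ).val 1 0) ((ρ σ).val 1 1) = true := fun σ => by
    rw [hfix, ← psi_eq_zero, MonoidHom.mk'_apply, ofAdd_eq_one]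
  let b : GQ → ZMod 2 := fun σ =>
    chi ((ρ σ).val 0 0) ((ρ σ).val 0 1) ((ρ σ).val 1 0) ((ρ σ).val 1 1)
  have hb : ∀ σ τ : GQ, σ t = t → τ t = t → b (σ * τ) = b σ + b τ := fun σ τ hσ hτ => by
    simp only [b, map_mul, Units.val_mul, Matrix.mul_apply, Fin.sum_univ_two]
    exact chi_mul _ _ _ _ _ _ _ _ ((hstab σ).1 hσ) ((hstab τ).1 hτ)
  rcases quad_real hunr htL ht b hb (fun σ hσ => by
    rw [hL] at hσ
    simp only [b, MonoidHom.mem_ker.1 hσ]
    decide +kernel) with h | ⟨s, hsL, hs⟩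
  · obtain ⟨σj, hσj⟩ := hall (GeneralLinearGroup.mkOfDetNeZero !![1, 1; 1, -1]
      (by rw [det_fin_two_of]; decide))
      (by simp only [GeneralLinearGroup.mkOfDetNeZero]; decide +kernel)
    have hj : σj t = t := (hstab σj).2 (by rw [hσj]; decide +kernel)
    have hbj := h σj hj
    simp only [b, hσj] at hbj
    revert hbj
    decide +kernel
  · -- complex conjugation would fix `√-3`
    have hs0 : s ≠ 0 := fun e => by rw [e] at hs; norm_num at hs
    have hfixs : ∀ σ ∈ ρ.ker, σ s = s := fun σ hσ =>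
      (IntermediateField.mem_fixingSubgroup_iff L σ).1 (hL.symm ▸ hσ) s hsL
    have hcs := complexConjugation_sqrt hs
    have key : ∀ a b c d : ZMod 3, a * d - b * c = 1 →
        a * a + b * c = 1 → a * b + b * d = 0 → c * a + d * c = 0 → c * b + d * d = 1 →
        (a = 1 ∧ b = 0 ∧ c = 0 ∧ d = 1) ∨ (a = -1 ∧ b = 0 ∧ c = 0 ∧ d = -1) := by decide +kernel
    have hc2 : (ρ complexConjugation).val * (ρ complexConjugation).val = 1 := by
      rw [← Units.val_mul, ← map_mul, complexConjugation_mul_self, map_one, Units.val_one]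
    have e00 := congrFun (congrFun hc2 0) 0
    have e01 := congrFun (congrFun hc2 0) 1
    have e10 := congrFun (congrFun hc2 1) 0
    have e11 := congrFun (congrFun hc2 1) 1
    simp [Matrix.mul_apply, Fin.sum_univ_two] at e00 e01 e10 e11
    have hd := hdet complexConjugation
    rw [det_fin_two] at hd
    rcases key _ _ _ _ hd e00 e01 e10 e11 with ⟨ha, hb', hc, hd'⟩ | ⟨ha, hb', hc, hd'⟩
    · have hone : ρ complexConjugation = 1 := Units.ext (Matrix.ext fun i j => by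
        fin_cases i <;> fin_cases j <;> simp [ha, hb', hc, hd'])
      have := hfixs _ (MonoidHom.mem_ker.2 hone)
      rw [hcs] at this
      exact hs0 (neg_eq_self.1 this)
    · obtain ⟨σ, hσ⟩ := hall (GeneralLinearGroup.mkOfDetNeZero !![0, -1; 1, 0]
        (by rw [det_fin_two_of]; decide))
        (by simp only [GeneralLinearGroup.mkOfDetNeZero]; decide +kernel)
      have hσ2 : ρ (σ * σ * complexConjugation) = 1 := Units.ext (Matrix.ext fun i j => by
        rw [map_mul, map_mul, hσ]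
        fin_cases i <;> fin_cases j <;>
          simp [GeneralLinearGroup.mkOfDetNeZero, Matrix.mul_apply, Fin.sum_univ_two, ha, hb', hc,
            hd'])
      have hsq : σ (σ s) = s := by
        have h2 : σ s ^ 2 = s ^ 2 := by rw [← map_pow, hs, map_neg, map_ofNat]
        rcases sq_eq_sq_iff_eq_or_eq_neg.1 h2 with e | e <;> simp [e]
      have := hfixs _ (MonoidHom.mem_ker.2 hσ2)
      rw [AlgEquiv.mul_apply, AlgEquiv.mul_apply, hcs, map_neg, map_neg, hsq] at this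
      exact hs0 (neg_eq_self.1 this)

include hopen hun in
/-- **Serre's theorem at three, every determinant.** -/
theorem exists_stable_line_all : ∃ v : Fin 2 → ZMod 3, v ≠ 0 ∧ ∀ σ, ∃ a : ZMod 3,
    (ρ σ : Matrix (Fin 2) (Fin 2) (ZMod 3)) *ᵥ v = a • v := by
  by_cases hdet : ∀ σ, (ρ σ : Matrix (Fin 2) (Fin 2) (ZMod 3)).det = 1
  · by_cases h3 : 3 ∣ Nat.card ρ.range
    · rcases sl_or_fixed_line h3 with h | ⟨v, hv, h⟩
      · exact (not_special_linear hopen hun hdet h).elim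
      · exact ⟨v, hv, fun σ => h _ (MonoidHom.mem_range.2 ⟨σ, rfl⟩)⟩
    · exact stable_line_of_not_three_dvd hopen hun h3
  · push Not at hdet
    obtain ⟨σ₀, h₀⟩ := hdet
    exact exists_stable_line hopen hun (σ₀ := σ₀) fun e => h₀ (congrArg Units.val e)

end FA.SerreThree

end
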