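import Fermat.Agent.SerreThree.Unramified
import Fermat.Agent.GoodThree.Field
import Fermat.Agent.ExceptionalUnits.Radical
import Fermat.Agent.LocalDef.Kummer

/-!
# The characters unramified outside three of `G_ℚ` and of `G_{ℚ(∛3)}`

In a finite Galois extension `L` of `ℚ` unramified outside `3`, a quadratic character of `G_ℚ`
which is not trivial is that of `√-3`; a cocycle with values in the cube roots of unity which is
not trivial is that of `∛3`; and a quadratic character of the stabiliser of a cube root of `3`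
which is not trivial is again that of `√-3`.
-/

set_option autoImplicit false
set_option linter.unusedSectionVars false
set_option linter.style.haveILetI false

noncomputable section

open NumberField Polynomial FA.GoodThree

local notation "Qb" => AlgebraicClosure ℚ
local notation "GQ" => AlgebraicClosure ℚ ≃ₐ[ℚ] AlgebraicClosure ℚ

namespace FA.SerreThree

variable {L : IntermediateField ℚ Qb} [FiniteDimensional ℚ L] [IsGalois ℚ L]
  (hL : UnramifiedOutsideThree L)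

theorem mem_of_fixed (M : IntermediateField ℚ Qb) {x : Qb}
    (h : ∀ σ ∈ M.fixingSubgroup, σ x = x) : x ∈ M := by
  haveI := FA.EC.isGalois_algebraicClosure
  rw [← InfiniteGalois.fixedField_fixingSubgroup M]
  exact fun σ => h σ.1 σ.2

theorem coe_intCast_ringOfIntegers (m : ℤ) : (((m : 𝓞 L) : L) : Qb) = (m : Qb) := by simp

theorem int_cast_dvd {x y : ℤ} (h : (x : 𝓞 L) ∣ (y : 𝓞 L)) : x ∣ y := by
  have : NumberField L := { }
  have hd := map_dvd (Algebra.norm ℤ) h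
  rw [show (x : 𝓞 L) = algebraMap ℤ (𝓞 L) x from (eq_intCast _ x).symm,
    show (y : 𝓞 L) = algebraMap ℤ (𝓞 L) y from (eq_intCast _ y).symm,
    Algebra.norm_algebraMap, Algebra.norm_algebraMap] at hd
  exact (Int.pow_dvd_pow_iff (by rw [RingOfIntegers.rank]; exact Module.finrank_pos.ne')).1 hd

include hL in
/-- **An integer which is an `n`-th power in `L`.** -/
theorem exists_int_eq {n : ℕ} (hn : n ≠ 0) {D : ℤ} (hD : D ≠ 0) {x : Qb} (hxL : x ∈ L)
    (hx : x ^ n = (D : Qb)) :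
    ∃ (u : ℤ) (j : ℕ) (g : ℤ), (u = 1 ∨ u = -1) ∧ g ≠ 0 ∧ D = u * 3 ^ j * g ^ n := by
  have : NumberField L := { }
  obtain ⟨u, j, g, e⟩ := exists_eq_unit_mul_pow hL (Int.castRingHom (𝓞 L))
    (fun a b h => int_cast_dvd h) Int.prime_three
    (fun π hπ h3 => ⟨π.natAbs, Int.prime_iff_natAbs_prime.1 hπ, fun e => h3 (by
      rw [← Int.natAbs_dvd_natAbs, e]; rfl), Int.dvd_natAbs.2 dvd_rfl⟩) hn hD
    (y := ⟨x, hxL⟩) (Subtype.ext (by simpa using hx))
  exact ⟨u, j, g, Int.isUnit_iff.1 u.isUnit, fun hg => hD (by rw [e, hg, zero_pow hn, mul_zero]), e⟩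

include hL in
/-- **A quadratic character of `G_ℚ`** is trivial or that of `√-3`. -/
theorem quad_rat (χ : GQ →* ℤˣ) (hχ : ∀ σ ∈ L.fixingSubgroup, χ σ = 1) :
    (∀ σ, χ σ = 1) ∨ ∀ σ, ∀ s : Qb, s ^ 2 = -3 → σ s = ((χ σ : ℤ) : Qb) * s := by
  have : NumberField L := { }
  obtain ⟨D, x, hD, hx, hgx⟩ := FA.ExceptionalUnits.exists_radical two_ne_zero
    (fun σ => ((χ σ : ℤ) : Qb)) (fun σ => by
      rcases Int.units_eq_one_or (χ σ) with h | h <;> simp [h])
    (fun g h => by rw [map_mul, Units.val_mul, Int.cast_mul, map_intCast])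
    (IntermediateField.fixingSubgroup_isOpen L) (fun σ hσ => by simp [hχ σ hσ])
  have hxL : x ∈ L := mem_of_fixed L fun σ hσ => by rw [hgx]; simp [hχ σ hσ]
  obtain ⟨u, j, g, hu, hg, rfl⟩ := exists_int_eq hL two_ne_zero hD hxL hx
  obtain ⟨m, e, he, rfl⟩ : ∃ m e, e < 2 ∧ j = 2 * m + e :=
    ⟨j / 2, j % 2, Nat.mod_lt _ two_pos, by omega⟩
  have hgQ : (g : Qb) * 3 ^ m ≠ 0 := by
    exact mul_ne_zero (Int.cast_ne_zero.2 hg) (pow_ne_zero _ (by norm_num))
  set z := x / ((g : Qb) * 3 ^ m) with hz_def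
  have hzL : z ∈ L :=
    div_mem hxL (mul_mem (intCast_mem L g) (pow_mem (natCast_mem L 3) m))
  have hgz : ∀ σ : GQ, σ z = ((χ σ : ℤ) : Qb) * z := fun σ => by
    rw [hz_def, map_div₀, hgx, map_mul, map_intCast, map_pow, map_ofNat, mul_div_assoc]
  have hz : z ^ 2 = ((u * 3 ^ e : ℤ) : Qb) := by
    rw [hz_def, div_pow, hx, div_eq_iff (pow_ne_zero 2 hgQ)]
    push_cast
    ring
  have hbad : (2 : ℤ) ∣ u * 3 ^ e - 1 → (4 : ℤ) ∣ u * 3 ^ e - 1 ^ 2 := fun h =>
    four_dvd_sub_sq hL (Int.castRingHom (𝓞 L)) (fun a b h => int_cast_dvd h) (by simpa using h)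
      (y := ⟨z, hzL⟩) (Subtype.ext (by rw [eq_intCast, coe_intCast_ringOfIntegers]; exact hz))
  interval_cases e <;> rcases hu with rfl | rfl
  · left
    intro σ
    have h1 : z = 1 ∨ z = -1 := sq_eq_one_iff.1 (by rw [hz]; norm_num)
    have := hgz σ
    rcases Int.units_eq_one_or (χ σ) with h | h
    · exact h
    · exfalso
      rw [h] at this
      rcases h1 with h1 | h1 <;> rw [h1] at this <;> norm_num at this
  · exact absurd (hbad (by norm_num)) (by norm_num)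
  · exact absurd (hbad (by norm_num)) (by norm_num)
  · right
    intro σ s hs
    rcases sq_eq_sq_iff_eq_or_eq_neg.1 (show z ^ 2 = s ^ 2 by rw [hz, hs]; norm_num) with h | h
    · rw [← h, hgz σ]
    · rw [show s = -z by rw [h, neg_neg], map_neg, hgz σ, mul_neg]

include hL in
/-- **A cocycle in the cube roots of unity** which is not trivial is that of a cube root of `3`. -/
theorem exists_cubeRoot_three {ζ : Qb} (hζ : IsPrimitiveRoot ζ 3) (c : GQ → Qb)
    (hc3 : ∀ σ, c σ ^ 3 = 1) (hc : ∀ g h, c (g * h) = c g * g (c h))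
    (hc1 : ∀ σ ∈ L.fixingSubgroup, c σ = 1) {σ₀ : GQ} (h₀ : σ₀ ζ = ζ) (h₀' : c σ₀ ≠ 1) :
    ∃ t : Qb, t ∈ L ∧ t ^ 3 = 3 ∧ ∀ σ, σ t = t ↔ c σ = 1 := by
  obtain ⟨D, x, hD, hx, hgx⟩ := FA.ExceptionalUnits.exists_radical three_ne_zero c hc3 hc
    (IntermediateField.fixingSubgroup_isOpen L) hc1
  have hxL : x ∈ L := mem_of_fixed L fun σ hσ => by rw [hgx, hc1 σ hσ, one_mul]
  obtain ⟨u, j, g, hu, hg, rfl⟩ := exists_int_eq hL three_ne_zero hD hxL hx
  obtain ⟨m, e, he, rfl⟩ : ∃ m e, e < 3 ∧ j = 3 * m + e :=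
    ⟨j / 3, j % 3, Nat.mod_lt _ three_pos, by omega⟩
  have hu3 : (u : Qb) ^ 3 = u := by rcases hu with rfl | rfl <;> norm_num
  have hgQ : (u : Qb) * g * 3 ^ m ≠ 0 := by
    refine mul_ne_zero (mul_ne_zero ?_ (Int.cast_ne_zero.2 hg)) (pow_ne_zero _ (by norm_num))
    rcases hu with rfl | rfl <;> norm_num
  set z := x / ((u : Qb) * g * 3 ^ m) with hz_def
  have hgz : ∀ σ : GQ, σ z = c σ * z := fun σ => by
    rw [hz_def, map_div₀, hgx, map_mul, map_mul, map_intCast, map_intCast, map_pow, map_ofNat,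
      mul_div_assoc]
  have hz : z ^ 3 = (3 : Qb) ^ e := by
    rw [hz_def, div_pow, hx, div_eq_iff (pow_ne_zero 3 hgQ)]
    push_cast
    rw [mul_pow, mul_pow, hu3]
    ring
  have hzL : z ∈ L :=
    div_mem hxL (mul_mem (mul_mem (intCast_mem L u) (intCast_mem L g))
      (pow_mem (natCast_mem L 3) m))
  interval_cases e
  · exfalso
    rw [pow_zero] at hz
    obtain ⟨i, -, hi⟩ := hζ.eq_pow_of_pow_eq_one hz
    have h := hgz σ₀
    rw [← hi, map_pow, h₀] at h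
    exact h₀' ((mul_eq_right₀ (pow_ne_zero i (hζ.ne_zero three_ne_zero))).1 h.symm)
  · refine ⟨z, hzL, by rw [hz, pow_one], fun σ => ?_⟩
    have hz0 : z ≠ 0 := fun e => by rw [e] at hz; norm_num at hz
    rw [hgz, mul_eq_right₀ hz0]
  · refine ⟨z ^ 2 / 3, div_mem (pow_mem hzL 2) (natCast_mem L 3), ?_, fun σ => ?_⟩
    · rw [div_pow, ← pow_mul, show 2 * 3 = 3 * 2 by norm_num, pow_mul, hz]; norm_num
    · have hz0 : z ^ 2 / 3 ≠ 0 :=
        div_ne_zero (pow_ne_zero 2 fun e => by rw [e] at hz; norm_num at hz) three_ne_zero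
      rw [map_div₀, map_pow, hgz, map_ofNat, mul_pow, mul_div_assoc, mul_eq_right₀ hz0]
      refine ⟨fun h => ?_, fun h => by rw [h, one_pow]⟩
      have := hc3 σ
      rwa [pow_succ, h, one_mul] at this

/-- An element of norm `± 1` is, up to sign, a square or `ε` times a square. -/
theorem unit_classes (u : (𝓞 K)ˣ) : ∃ (w g : 𝓞 K), (u : 𝓞 K) = w * g ^ 2 ∧
    (w = elO 1 0 0 ∨ w = elO (-1) 0 0 ∨ w = elO (-2) 0 1 ∨ w = elO 2 0 (-1)) := by
  have hneg : Algebra.norm ℤ (-1 : 𝓞 K) = -1 := by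
    rw [show (-1 : 𝓞 K) = elO (-1) 0 0 by simp [elO], norm_elO]; norm_num
  rcases Int.isUnit_iff.1 (u.isUnit.map (Algebra.norm ℤ)) with h | h
  · obtain ⟨η, rfl | rfl⟩ := unit_eq u h
    · exact ⟨_, η, by simp [elO], Or.inl rfl⟩
    · exact ⟨_, η, by simp [coe_epsU], Or.inr (Or.inr (Or.inl rfl))⟩
  · obtain ⟨η, e | e⟩ := unit_eq (-u) (by
      rw [Units.val_neg, ← neg_one_mul, map_mul, h, hneg]; norm_num)
    · exact ⟨_, η, by rw [← neg_neg u, e]; simp [elO], Or.inr (Or.inl rfl)⟩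
    · exact ⟨_, η, by rw [← neg_neg u, e]; simp [coe_epsU, elO]; ring,
        Or.inr (Or.inr (Or.inr rfl))⟩

theorem exists_prime_number (π : 𝓞 K) (hπ : Prime π) (hτ : ¬ π ∣ thetaO) :
    ∃ q : ℕ, q.Prime ∧ q ≠ 3 ∧ π ∣ (q : 𝓞 K) := by
  obtain ⟨a, b, c, rfl⟩ := exists_elO π
  set N : ℤ := a ^ 3 + 3 * b ^ 3 + 9 * c ^ 3 - 9 * a * b * c with hN
  have hN0 : N ≠ 0 := fun e => hπ.ne_zero (Algebra.norm_eq_zero_iff.1 (by rw [norm_elO, ← hN, e]))
  have hd : elO a b c ∣ ((N.natAbs : ℕ) : 𝓞 K) := by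
    have h1 : elO a b c ∣ (N : 𝓞 K) :=
      ⟨elO (a ^ 2 - 3 * b * c) (3 * c ^ 2 - a * b) (b ^ 2 - a * c), by
        rw [elO_mul, elO_const, hN]; congr 1 <;> ring⟩
    rcases Int.natAbs_eq N with e | e <;> rw [e] at h1
    · rwa [Int.cast_natCast] at h1
    · rwa [Int.cast_neg, dvd_neg, Int.cast_natCast] at h1
  rw [← Nat.prod_primeFactorsList (Int.natAbs_ne_zero.2 hN0), ← Nat.coe_castRingHom,
    map_list_prod, hπ.dvd_prod_iff] at hd
  obtain ⟨v, hv, hdv⟩ := hd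
  obtain ⟨q, hq, rfl⟩ := List.mem_map.1 hv
  refine ⟨q, Nat.prime_of_mem_primeFactorsList hq, fun e => hτ ?_, hdv⟩
  rw [Nat.coe_castRingHom, e, Nat.cast_ofNat, ← thetaO_eq] at hdv
  exact hπ.dvd_of_dvd_pow hdv

theorem four_not_dvd_elO {a b c : ℤ} (h : ¬ ((4 : ℤ) ∣ a ∧ (4 : ℤ) ∣ b ∧ (4 : ℤ) ∣ c)) :
    ¬ (4 : 𝓞 K) ∣ elO a b c := by
  rintro ⟨g, hg⟩
  obtain ⟨x, y, z, rfl⟩ := exists_elO g
  rw [show (4 : 𝓞 K) = elO 4 0 0 by simp [elO], elO_mul] at hg
  obtain ⟨h1, h2, h3⟩ := elO_inj hg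
  exact h ⟨⟨x, by linarith⟩, ⟨y, by linarith⟩, ⟨z, by linarith⟩⟩

include hL in
/-- **A quadratic character of the stabiliser of a cube root of `3`** is trivial or that of
`√-3`. -/
theorem quad_cubic {t : Qb} (htL : t ∈ L) (ht : t ^ 3 = 3) (b : GQ → ZMod 2)
    (hb : ∀ σ τ : GQ, σ t = t → τ t = t → b (σ * τ) = b σ + b τ)
    (hb0 : ∀ σ ∈ L.fixingSubgroup, b σ = 0) :
    (∀ σ : GQ, σ t = t → b σ = 0) ∨
      ∀ σ : GQ, σ t = t → ∀ s : Qb, s ^ 2 = -3 → σ s = (-1) ^ (b σ).val * s := by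
  have : NumberField L := { }
  set H : Subgroup GQ := MulAction.stabilizer GQ t with hH
  have hHmem : ∀ σ : GQ, σ ∈ H ↔ σ t = t := fun σ => Iff.rfl
  have hζ : IsPrimitiveRoot (-1 : Qb) 2 := IsPrimitiveRoot.neg_one 0 two_ne_zero.symm
  obtain ⟨y, hy0, hy⟩ := FA.LocalDef.exists_eq_div hζ H b (fun σ hσ τ hτ m hm => by
    have hm1 : (m : ZMod 2) = 1 := by
      rw [map_neg, map_one] at hm
      rcases Nat.even_or_odd m with h | h
      · rw [h.neg_one_pow] at hm; norm_num at hm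
      · exact (ZMod.natCast_eq_one_iff_odd).2 h
    rw [hm1, one_mul]
    exact hb σ τ ((hHmem σ).1 hσ) ((hHmem τ).1 hτ)) L fun σ _ h => hb0 σ h
  have hy' : ∀ σ : GQ, σ t = t → σ y = (-1) ^ (b σ).val * y := fun σ hσ => by
    rw [hy σ hσ, ZMod.neg_eq_self_mod_two, FA.LocalDef.zp_apply]
  -- the embedding of the cubic field
  let ι : K →ₐ[ℚ] Qb := AdjoinRoot.liftAlgHom fK (Algebra.ofId ℚ Qb) t
    (by simp [fK, ht, eval₂_sub, map_ofNat])
  have hιθ : ι theta = t := AdjoinRoot.liftAlgHom_root _ _ _ _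
  have hιfix : ∀ σ : GQ, σ t = t → ∀ k : K, σ (ι k) = ι k := fun σ hσ k => by
    obtain ⟨p, q, r, rfl⟩ := exists_el k
    simp [el, hιθ, hσ]
  have hιL : ∀ k : K, ι k ∈ L := fun k => by
    obtain ⟨p, q, r, rfl⟩ := exists_el k
    simp only [el, map_add, map_mul, map_pow, map_ratCast, hιθ]
    exact add_mem
      (add_mem (SubfieldClass.ratCast_mem L p) (mul_mem (SubfieldClass.ratCast_mem L q) htL))
      (mul_mem (SubfieldClass.ratCast_mem L r) (pow_mem htL 2))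
  let ι' : K →+* L := ι.toRingHom.codRestrict L.toSubfield hιL
  let φ : 𝓞 K →+* 𝓞 L := RingOfIntegers.mapRingHom ι'
  have hφc : ∀ x : 𝓞 K, (((φ x : 𝓞 L) : L) : Qb) = ι x := fun x => rfl
  have hφ : ∀ x z : 𝓞 K, φ x ∣ φ z → x ∣ z := by
    rintro x z ⟨w, hw⟩
    have hwc : ι z = ι x * ((w : L) : Qb) := by
      rw [← hφc, ← hφc, hw]; rfl
    rcases eq_or_ne x 0 with rfl | hx
    · simp only [map_zero, zero_mul] at hwc
      rw [RingOfIntegers.coe_eq_zero_iff.1 (ι.injective (hwc.trans (map_zero ι).symm))]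
    have hxK : (x : K) ≠ 0 := RingOfIntegers.coe_ne_zero_iff.2 hx
    have hint : IsIntegral ℤ ((z : K) / (x : K)) := by
      rw [← isIntegral_algHom_iff (ι.restrictScalars ℤ) ι.injective]
      show IsIntegral ℤ (ι ((z : K) / (x : K)))
      rw [map_div₀, hwc, mul_div_assoc, mul_div_cancel₀ _ (by simpa using hxK)]
      exact (RingOfIntegers.isIntegral_coe w).map (L.val.restrictScalars ℤ)
    exact ⟨⟨_, hint⟩, RingOfIntegers.ext (mul_div_cancel₀ (z : K) hxK).symm⟩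
  -- an integral radical
  have ha : y ^ 2 ∈ ι.fieldRange := mem_of_fixed _ fun σ hσ => by
    have hσt : σ t = t := hιθ ▸ hσ ⟨ι theta, AlgHom.mem_fieldRange.2 ⟨theta, rfl⟩⟩
    rw [map_pow, hy' σ hσt, mul_pow, ← pow_mul, mul_comm _ 2, pow_mul, neg_one_sq, one_pow, one_mul]
  obtain ⟨k, hk⟩ := AlgHom.mem_fieldRange.1 ha
  obtain ⟨p, d, hd, hkd⟩ := IsFractionRing.div_surjective (𝓞 K) k
  have hd0 : (d : K) ≠ 0 := RingOfIntegers.coe_ne_zero_iff.2 (nonZeroDivisors.ne_zero hd)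
  have hp0 : p ≠ 0 := fun e => hy0 ((pow_eq_zero_iff two_ne_zero).1 (by
    rw [← hk, ← hkd, e]; simp))
  have hyL : y ∈ L := mem_of_fixed L fun σ hσ => by
    rw [hy' σ (hσ ⟨t, htL⟩), hb0 σ hσ, ZMod.val_zero, pow_zero, one_mul]
  set y₁ := y * ι d with hy₁_def
  have hy₁ : y₁ ^ 2 = ι ((p * d : 𝓞 K) : K) := by
    rw [hy₁_def, mul_pow, ← hk, ← hkd, ← map_pow, ← map_mul]
    congr 1
    push_cast
    field_simp
  obtain ⟨u, j, g, he⟩ := exists_eq_unit_mul_pow hL φ hφ prime_thetaO exists_prime_number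
    two_ne_zero (mul_ne_zero hp0 (nonZeroDivisors.ne_zero hd))
    (y := ⟨y₁, mul_mem hyL (hιL _)⟩) (Subtype.ext hy₁)
  obtain ⟨w, g', hu, hw⟩ := unit_classes u
  obtain ⟨m, e, hm, rfl⟩ : ∃ m e, e < 2 ∧ j = 2 * m + e :=
    ⟨j / 2, j % 2, Nat.mod_lt _ two_pos, by omega⟩
  set G : 𝓞 K := g' * thetaO ^ m * g with hG
  have hpd : p * d = w * thetaO ^ e * G ^ 2 := by rw [he, hu, hG]; ring
  have hG0 : ι (G : K) ≠ 0 := by
    rw [Ne, map_eq_zero, RingOfIntegers.coe_eq_zero_iff]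
    intro h0
    rw [h0, zero_pow two_ne_zero, mul_zero] at hpd
    exact mul_ne_zero hp0 (nonZeroDivisors.ne_zero hd) hpd
  set z := y₁ / ι (G : K) with hz_def
  have hz : z ^ 2 = ι ((w * thetaO ^ e : 𝓞 K) : K) := by
    rw [hz_def, div_pow, hy₁, hpd, div_eq_iff (pow_ne_zero 2 hG0), ← map_pow, ← map_mul]
    congr 1
  have hzσ : ∀ σ : GQ, σ t = t → σ z = (-1) ^ (b σ).val * z := fun σ hσ => by
    rw [hz_def, hy₁_def, map_div₀, map_mul, hy' σ hσ, hιfix σ hσ, hιfix σ hσ]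
    ring
  have hbad : ∀ {A B C D D' D'' : ℤ} (r : 𝓞 K), w * thetaO ^ e = elO A B C →
      elO A B C - r ^ 2 = elO (2 * D) (2 * D') (2 * D'') →
      ¬ ((4 : ℤ) ∣ 2 * D ∧ (4 : ℤ) ∣ 2 * D' ∧ (4 : ℤ) ∣ 2 * D'') → False := by
    intro A B C D D' D'' r h1 h2 h3
    refine four_not_dvd_elO h3 (h2 ▸ h1 ▸ four_dvd_sub_sq hL φ hφ ?_
      (y := ⟨z, div_mem (mul_mem hyL (hιL _)) (hιL _)⟩) (Subtype.ext hz))
    exact ⟨elO D D' D'', by rw [h1, h2]; simp [elO]; ring⟩
  interval_cases e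
  · rw [pow_zero, mul_one] at hbad hz
    rcases hw with rfl | rfl | rfl | rfl
    · left
      intro σ hσ
      have h1 : z ^ 2 = 1 := by rw [hz]; simp [elO]
      have hz0 : z ≠ 0 := fun e => by rw [e] at h1; norm_num at h1
      have h := hzσ σ hσ
      have hfix : σ z = z := by
        rcases sq_eq_one_iff.1 h1 with e | e <;> simp [e]
      rw [hfix, eq_comm, mul_eq_right₀ hz0] at h
      by_contra hne
      have : (b σ).val = 1 := by
        have := (b σ).val_lt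
        have := (ZMod.val_ne_zero (b σ)).2 hne
        omega
      rw [this, pow_one] at h
      norm_num at h
    · exact (hbad (elO 1 0 0) rfl (D := -1) (D' := 0) (D'' := 0)
        (by simp [elO]; ring) (by norm_num)).elim
    · exact (hbad (elO 0 1 0) rfl (D := -1) (D' := 0) (D'' := 0)
        (by simp [elO]) (by norm_num)).elim
    · exact (hbad (elO 0 1 0) rfl (D := 1) (D' := 0) (D'' := -1)
        (by simp [elO]; ring) (by norm_num)).elim
  · rcases hw with rfl | rfl | rfl | rfl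
    · exact (hbad (A := 0) (B := 1) (C := 0) (elO 0 0 1) (by simp [elO]) (D := 0) (D' := -1)
        (D'' := 0) (by simp [elO]; linear_combination -thetaO * thetaO_eq) (by norm_num)).elim
    · right
      intro σ hσ s hs
      have h1 : (z * t) ^ 2 = s ^ 2 := by
        rw [mul_pow, hz, hs]
        simp [elO, hιθ]
        linear_combination ht
      have hσ' : σ (z * t) = (-1) ^ (b σ).val * (z * t) := by
        rw [map_mul, hzσ σ hσ, hσ, mul_assoc]
      rcases sq_eq_sq_iff_eq_or_eq_neg.1 h1 with e | e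
      · rw [← e, hσ']
      · rw [show s = -(z * t) by rw [e, neg_neg], map_neg, hσ', mul_neg]
    · exact (hbad (A := 3) (B := -2) (C := 0) (elO 1 0 0) (by
        simp [elO]; linear_combination thetaO_eq) (D := 1) (D' := -1) (D'' := 0)
        (by simp [elO]; ring) (by norm_num)).elim
    · exact (hbad (A := -3) (B := 2) (C := 0) (elO 1 0 0) (by
        simp [elO]; linear_combination -thetaO_eq) (D := -2) (D' := 1) (D'' := 0)
        (by simp [elO]; ring) (by norm_num)).elim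

end FA.SerreThree

end
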