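import Mathlib.NumberTheory.NumberField.ClassNumber
import Mathlib.NumberTheory.NumberField.Units.DirichletTheorem
import Mathlib.NumberTheory.NumberField.Discriminant.Basic
import Mathlib.Algebra.Polynomial.SpecificDegree
import Mathlib.RingTheory.Ideal.Norm.AbsNorm
import Mathlib.Analysis.Real.Pi.Bounds
import Mathlib.Tactic.NormNum.Prime
import Mathlib.Tactic.LinearCombination

/-!
# The real cubic field of discriminant `81`

`F = ℚ(e)` with `e³ - 3 e + 1 = 0`, the field of the ninth roots of unity fixed by conjugation: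
its class number is one, `2` is inert, the units are `± e ^ j (e - 1) ^ k` times squares, and of
the sixteen square classes `± e ^ j (e - 1) ^ k (e + 1) ^ l` only those of `1` and `- e (e + 1)`
are squares modulo `4`.
-/

set_option autoImplicit false
set_option linter.style.haveILetI false

noncomputable section

open Polynomial NumberField Module

namespace FA.SerreThree

/-- The polynomial of `e`. -/
def fF : ℚ[X] := X ^ 3 - C 3 * X + C 1

theorem fF_monic : fF.Monic := by unfold fF; monicity!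

theorem natDegree_fF : fF.natDegree = 3 := by unfold fF; compute_degree!

theorem fF_irreducible : Irreducible fF := by
  rw [irreducible_iff_roots_eq_zero_of_degree_le_three (natDegree_fF.symm ▸ (by norm_num))
    natDegree_fF.le, Multiset.eq_zero_iff_forall_notMem]
  intro x hx
  have hroot : x ^ 3 - 3 * x + 1 = 0 := by
    have h := (mem_roots fF_monic.ne_zero).1 hx
    simpa [fF] using h
  have hint : IsIntegral ℤ x :=
    ⟨X ^ 3 - C 3 * X + C 1, by monicity!, by simpa using hroot⟩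
  obtain ⟨n, rfl⟩ := IsIntegrallyClosed.isIntegral_iff.1 hint
  have hn : n ^ 3 - 3 * n + 1 = 0 := by
    rw [eq_intCast] at hroot
    exact_mod_cast hroot
  have hu : n ∣ 1 := ⟨3 - n ^ 2, by linear_combination hn⟩
  rcases Int.isUnit_iff.1 (isUnit_of_dvd_one hu) with rfl | rfl <;> norm_num at hn

instance fact_fF : Fact (Irreducible fF) := ⟨fF_irreducible⟩

/-- The cubic field. -/
abbrev F : Type := AdjoinRoot fF

/-- Its generator. -/
abbrev gen : F := AdjoinRoot.root fF

instance charZero_F : CharZero F := charZero_of_injective_algebraMap (algebraMap ℚ F).injective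

instance finiteDimensional_F : FiniteDimensional ℚ F :=
  (AdjoinRoot.powerBasis fF_monic.ne_zero).finite

instance numberField_F : NumberField F := {}

theorem gen_eq : gen ^ 3 = 3 * gen - 1 := by
  have h : aeval gen fF = 0 := (AdjoinRoot.aeval_eq fF).trans AdjoinRoot.mk_self
  simp [fF, map_ofNat] at h
  linear_combination h

theorem finrank_F : finrank ℚ F = 3 := by
  rw [(AdjoinRoot.powerBasis fF_monic.ne_zero).finrank, AdjoinRoot.powerBasis_dim, natDegree_fF]

/-- The basis `1, e, e²`. -/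
def basisF : Basis (Fin 3) ℚ F :=
  (AdjoinRoot.powerBasis fF_monic.ne_zero).basis.reindex
    (finCongr (by rw [AdjoinRoot.powerBasis_dim, natDegree_fF]))

theorem basisF_apply (j : Fin 3) : basisF j = gen ^ (j : ℕ) := by simp [basisF, gen]

/-- The element `x + y e + z e²`. -/
def elF (x y z : ℚ) : F := (x : F) + (y : F) * gen + (z : F) * gen ^ 2

theorem exists_elF (k : F) : ∃ x y z : ℚ, k = elF x y z :=
  ⟨basisF.repr k 0, basisF.repr k 1, basisF.repr k 2, by
    conv_lhs => rw [← basisF.sum_repr k]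
    simp [elF, Fin.sum_univ_three, basisF_apply, Algebra.smul_def]⟩

theorem leftMul_elF (x y z : ℚ) : Algebra.leftMulMatrix basisF (elF x y z) =
    !![x, -z, -y; y, x + 3 * z, 3 * y - z; z, y, x + 3 * z] := by
  ext i j
  rw [Algebra.leftMulMatrix_eq_repr_mul, basisF_apply]
  have hcol : elF x y z * gen ^ (j : ℕ) =
      ∑ k, !![x, -z, -y; y, x + 3 * z, 3 * y - z; z, y, x + 3 * z] k j • basisF k := by
    fin_cases j <;> simp [elF, Fin.sum_univ_three, basisF_apply, Algebra.smul_def]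
    · linear_combination (z : F) * gen_eq
    · linear_combination ((z : F) * gen + y) * gen_eq
  rw [hcol, Basis.repr_sum_self]

theorem norm_elF (x y z : ℚ) : Algebra.norm ℚ (elF x y z) =
    x ^ 3 + 6 * x ^ 2 * z + 9 * x * z ^ 2 - 3 * x * y ^ 2 + 3 * x * y * z + z ^ 3 - y ^ 3 +
      3 * y * z ^ 2 := by
  rw [Algebra.norm_eq_matrix_det basisF, leftMul_elF, Matrix.det_fin_three]
  simp
  ring

theorem trace_elF (x y z : ℚ) : Algebra.trace ℚ F (elF x y z) = 3 * x + 6 * z := by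
  rw [Algebra.trace_eq_matrix_trace basisF, leftMul_elF, Matrix.trace_fin_three]
  simp
  ring

theorem isIntegral_gen : IsIntegral ℤ gen :=
  ⟨X ^ 3 - C 3 * X + C 1, by monicity!, by simp [gen_eq]⟩

/-- The generator as an algebraic integer. -/
def genO : 𝓞 F := ⟨gen, isIntegral_gen⟩

@[simp] theorem coe_genO : (genO : F) = gen := rfl

theorem genO_eq : genO ^ 3 = 3 * genO - 1 :=
  RingOfIntegers.ext (by simp [gen_eq, map_ofNat])

/-- The integer `a + b e + c e²`. -/
def triO (t : ℤ × ℤ × ℤ) : 𝓞 F :=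
  (t.1 : 𝓞 F) + (t.2.1 : 𝓞 F) * genO + (t.2.2 : 𝓞 F) * genO ^ 2

/-- The product of triples. -/
def triMul (s t : ℤ × ℤ × ℤ) : ℤ × ℤ × ℤ :=
  (s.1 * t.1 - (s.2.1 * t.2.2 + s.2.2 * t.2.1),
    s.1 * t.2.1 + s.2.1 * t.1 + 3 * (s.2.1 * t.2.2 + s.2.2 * t.2.1) - s.2.2 * t.2.2,
    s.1 * t.2.2 + s.2.1 * t.2.1 + s.2.2 * t.1 + 3 * (s.2.2 * t.2.2))

theorem triO_mul (s t : ℤ × ℤ × ℤ) : triO s * triO t = triO (triMul s t) := by
  simp only [triO, triMul]
  push_cast
  linear_combination ((s.2.1 : 𝓞 F) * t.2.2 + s.2.2 * t.2.1 + s.2.2 * t.2.2 * genO) * genO_eq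

/-- The norm of a triple. -/
def triNorm (t : ℤ × ℤ × ℤ) : ℤ :=
  t.1 ^ 3 + 6 * t.1 ^ 2 * t.2.2 + 9 * t.1 * t.2.2 ^ 2 - 3 * t.1 * t.2.1 ^ 2 +
    3 * t.1 * t.2.1 * t.2.2 + t.2.2 ^ 3 - t.2.1 ^ 3 + 3 * t.2.1 * t.2.2 ^ 2

theorem norm_triO (t : ℤ × ℤ × ℤ) : Algebra.norm ℤ (triO t) = triNorm t := by
  have h := Algebra.coe_norm_int (triO t)
  rw [show ((triO t : 𝓞 F) : F) = elF t.1 t.2.1 t.2.2 by simp [triO, elF], norm_elF] at h
  have h' : (Algebra.norm ℤ (triO t) : ℚ) = (triNorm t : ℚ) := by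
    rw [h]; simp [triNorm]
  exact_mod_cast h'

/-! ### The discriminant and the class number -/

theorem abs_discr_le_F : |discr F| ≤ 81 := by
  classical
  set b : Fin 3 → F := fun j => gen ^ (j : ℕ) with hb
  have hint : ∀ i, IsIntegral ℤ (b i) := fun i => isIntegral_gen.pow _
  have hd : Algebra.discr ℚ b = 81 := by
    have hM : Algebra.traceMatrix ℚ b = !![3, 0, 6; 0, 6, -3; 6, -3, 18] := by
      ext i j
      have h0 : gen ^ 0 = elF 1 0 0 := by simp [elF]
      have h1 : gen ^ 1 = elF 0 1 0 := by simp [elF]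
      have h2 : gen ^ 2 = elF 0 0 1 := by simp [elF]
      have h3 : gen ^ 3 = elF (-1) 3 0 := by simp [elF, gen_eq]; ring
      have h4 : gen ^ 4 = elF 0 (-1) 3 := by simp [elF, pow_succ _ 3, gen_eq]; ring
      have t : ∀ n x y z, gen ^ n = elF x y z →
          Algebra.trace ℚ F (gen ^ n) = 3 * x + 6 * z :=
        fun n x y z e => by rw [e, trace_elF]
      have t0 := t 0 _ _ _ h0
      have t1 := t 1 _ _ _ h1
      rw [pow_zero, mul_one, mul_zero, add_zero] at t0
      rw [pow_one, mul_zero, mul_zero, add_zero] at t1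
      rw [Algebra.traceMatrix_apply, Algebra.traceForm_apply, hb, ← pow_add]
      fin_cases i <;> fin_cases j <;>
        norm_num [t0, t1, t 2 _ _ _ h2, t 3 _ _ _ h3, t 4 _ _ _ h4]
    rw [Algebra.discr_def, hM, Matrix.det_fin_three]
    simp
    norm_num
  let e : Fin 3 ≃ Free.ChooseBasisIndex ℤ (𝓞 F) := Fintype.equivOfCardEq (by
    rw [Fintype.card_fin, ← finrank_F, ← Module.finrank_eq_card_basis (integralBasis F)])
  let bas := (integralBasis F).reindex e.symm
  let P₀ : Matrix (Fin 3) (Fin 3) ℤ := fun i j =>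
    (RingOfIntegers.basis F).repr (⟨b j, hint j⟩ : 𝓞 F) (e i)
  have hP : bas.toMatrix b = P₀.map (algebraMap ℤ ℚ) := by
    ext i j
    rw [Basis.toMatrix_apply, Basis.repr_reindex_apply, Matrix.map_apply, e.symm_symm]
    exact integralBasis_repr_apply F (⟨b j, hint j⟩ : 𝓞 F) (e i)
  have h := Algebra.discr_of_matrix_vecMul (A := ℚ) (bas : Fin 3 → F) (bas.toMatrix b)
  rw [Basis.toMatrix_map_vecMul, Basis.coe_reindex, e.symm_symm,
    show (integralBasis F : _ → F) ∘ e = (integralBasis F) ∘ ⇑e.symm.symm from rfl,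
    Algebra.discr_reindex, ← coe_discr, hP,
    show P₀.map (algebraMap ℤ ℚ) = (algebraMap ℤ ℚ).mapMatrix P₀ from rfl, ← RingHom.map_det,
    hd] at h
  have h' : (81 : ℤ) = P₀.det ^ 2 * discr F := by
    rw [eq_intCast] at h
    exact_mod_cast h
  exact Int.le_of_dvd (by norm_num) ((abs_dvd _ _).mpr ⟨P₀.det ^ 2, by linear_combination h'⟩)

/-- No ideal has norm two. -/
theorem absNorm_ne_two (I : Ideal (𝓞 F)) : Ideal.absNorm I ≠ 2 := fun h => by
  rw [Ideal.absNorm_apply, Submodule.cardQuot_apply] at h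
  have hfin : Finite (𝓞 F ⧸ I) := Nat.finite_of_card_ne_zero (h.trans_ne two_ne_zero)
  have : Nontrivial (𝓞 F ⧸ I) := Finite.one_lt_card_iff_nontrivial.1 (by rw [h]; norm_num)
  obtain ⟨w, -, hw⟩ := (Nat.card_eq_two_iff' (0 : 𝓞 F ⧸ I)).1 h
  have hcases : ∀ x : 𝓞 F ⧸ I, x = 0 ∨ x = 1 := fun x => by
    by_cases hx : x = 0
    · exact Or.inl hx
    · exact Or.inr ((hw x hx).trans (hw 1 one_ne_zero).symm)
  have he : (Ideal.Quotient.mk I genO) ^ 3 = 3 * Ideal.Quotient.mk I genO - 1 := by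
    rw [← map_pow, genO_eq, map_sub, map_mul, map_ofNat, map_one]
  have h2 : (2 : 𝓞 F ⧸ I) = 0 := by
    rcases hcases 2 with e | e
    · exact e
    · exact absurd (by linear_combination e : (1 : 𝓞 F ⧸ I) = 0) one_ne_zero
  rcases hcases (Ideal.Quotient.mk I genO) with e | e <;> rw [e] at he
  · exact one_ne_zero (by linear_combination he : (1 : 𝓞 F ⧸ I) = 0)
  · exact one_ne_zero (by linear_combination (-1 : 𝓞 F ⧸ I) * he : (1 : 𝓞 F ⧸ I) = 0)

theorem isPrincipalIdealRing_F : IsPrincipalIdealRing (𝓞 F) := by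
  refine RingOfIntegers.isPrincipalIdealRing_of_isPrincipal_of_norm_le_of_isPrime fun I hI hN => ?_
  have hr : InfinitePlace.nrComplexPlaces F ≤ 1 := by
    have h := InfinitePlace.card_add_two_mul_card_eq_rank F
    rw [finrank_F] at h
    omega
  have hlt : (4 / Real.pi) ^ InfinitePlace.nrComplexPlaces F *
      ((Nat.factorial (finrank ℚ F)) / (finrank ℚ F : ℝ) ^ (finrank ℚ F) *
        √|(discr F : ℝ)|) < 3 := by
    rw [finrank_F, show Nat.factorial 3 = 6 from rfl]
    have hs : √|(discr F : ℝ)| ≤ 9 := by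
      rw [← Real.sqrt_sq (show (0 : ℝ) ≤ 9 by norm_num)]
      refine Real.sqrt_le_sqrt ?_
      rw [← Int.cast_abs]
      exact le_trans (Int.cast_le.2 abs_discr_le_F) (by norm_num)
    have hpi : (4 / Real.pi) ^ InfinitePlace.nrComplexPlaces F < 14 / 10 := by
      have h1 : 4 / Real.pi < 14 / 10 := by
        rw [div_lt_div_iff₀ Real.pi_pos (by norm_num)]
        nlinarith [Real.pi_gt_d2]
      rcases Nat.le_one_iff_eq_zero_or_eq_one.1 hr with e | e <;> rw [e]
      · norm_num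
      · rwa [pow_one]
    calc _ ≤ (14 / 10 : ℝ) * (6 / 3 ^ 3 * 9) := by push_cast; gcongr
      _ < 3 := by norm_num
  set n := Ideal.absNorm (I : Ideal (𝓞 F)) with hn
  have hn3 : n < 3 := by
    have : ((n : ℕ) : ℝ) < ((3 : ℕ) : ℝ) := by push_cast; exact hN.trans_lt hlt
    exact_mod_cast this
  have hn0 : n ≠ 0 := by
    rw [hn, Ne, Ideal.absNorm_eq_zero_iff]; exact nonZeroDivisors.coe_ne_zero I
  have hn1 : n ≠ 1 := fun e => hI.ne_top (Ideal.absNorm_eq_one_iff.1 e)
  exact absurd (show n = 2 by omega) (absNorm_ne_two _)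

instance isPrincipalIdealRing_F_inst : IsPrincipalIdealRing (𝓞 F) := isPrincipalIdealRing_F

theorem four_not_dvd {y : 𝓞 F} (h : ¬ (8 : ℤ) ∣ Algebra.norm ℤ y) : ¬ (4 : 𝓞 F) ∣ 2 * y :=
  fun ⟨k, hk⟩ => h (by
    have hy : y = 2 * k := mul_left_cancel₀ (two_ne_zero : (2 : 𝓞 F) ≠ 0) (by rw [hk]; ring)
    rw [hy, map_mul, show (2 : 𝓞 F) = triO (2, 0, 0) by simp [triO], norm_triO]
    exact dvd_mul_of_dvd_left (by decide) _)

/-- `2` is prime. -/
theorem prime_two_F : Prime (2 : 𝓞 F) := by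
  have hN : Algebra.norm ℤ (2 : 𝓞 F) = 8 := by
    rw [show (2 : 𝓞 F) = triO (2, 0, 0) by simp [triO], norm_triO]; decide
  refine Irreducible.prime ⟨fun hu => ?_, fun p q hpq => ?_⟩
  · have := hu.map (Algebra.norm ℤ)
    rw [hN, Int.isUnit_iff] at this
    omega
  have hm : (Algebra.norm ℤ p).natAbs * (Algebra.norm ℤ q).natAbs = 8 := by
    rw [← Int.natAbs_mul, ← map_mul, ← hpq, hN]; rfl
  have unit_of : ∀ r : 𝓞 F, (Algebra.norm ℤ r).natAbs = 1 → IsUnit r := fun r hr => by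
    rw [← Ideal.span_singleton_eq_top, ← Ideal.absNorm_eq_one_iff, Ideal.absNorm_span_singleton,
      hr]
  have h2 : ∀ r : 𝓞 F, (Algebra.norm ℤ r).natAbs ≠ 2 := fun r h =>
    absNorm_ne_two (Ideal.span {r}) (by rw [Ideal.absNorm_span_singleton, h])
  have := h2 p
  have := h2 q
  rcases (Nat.le_of_dvd (by norm_num) ⟨_, hm.symm⟩ : (Algebra.norm ℤ p).natAbs ≤ 8) |>.lt_or_eq
    with hlt | heq
  · interval_cases h : (Algebra.norm ℤ p).natAbs
    all_goals first
      | exact Or.inl (unit_of p h)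
      | omega
  · exact Or.inr (unit_of q (by rw [heq] at hm; omega))

/-! ### The square classes -/

/-- The triples of `(-1) ^ i e ^ j (e - 1) ^ k (e + 1) ^ l`. -/
def classTri (i j k l : Fin 2) : ℤ × ℤ × ℤ :=
  triMul (triMul (if i = 0 then (1, 0, 0) else (-1, 0, 0)) (if j = 0 then (1, 0, 0) else (0, 1, 0)))
    (triMul (if k = 0 then (1, 0, 0) else (-1, 1, 0)) (if l = 0 then (1, 0, 0) else (1, 1, 0)))

/-- A square root modulo two. -/
def rootTri (t : ℤ × ℤ × ℤ) : ℤ × ℤ × ℤ := triMul (triMul t t) (triMul t t)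

/-- Half the difference to the square of the root modulo two. -/
def halfTri (t : ℤ × ℤ × ℤ) : ℤ × ℤ × ℤ :=
  ((t.1 - (triMul (rootTri t) (rootTri t)).1) / 2,
    (t.2.1 - (triMul (rootTri t) (rootTri t)).2.1) / 2,
    (t.2.2 - (triMul (rootTri t) (rootTri t)).2.2) / 2)

/-- The exceptional classes `1` and `- e (e + 1)`. -/
def allowedClass (i j k l : Fin 2) : Prop :=
  (i = 0 ∧ j = 0 ∧ k = 0 ∧ l = 0) ∨ (i = 1 ∧ j = 1 ∧ k = 0 ∧ l = 1)

theorem classTri_table : ∀ i j k l : Fin 2,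
    ((i = 0 ∧ j = 0 ∧ k = 0 ∧ l = 0) ∨ (i = 1 ∧ j = 1 ∧ k = 0 ∧ l = 1)) ∨
      (classTri i j k l = triMul (rootTri (classTri i j k l)) (rootTri (classTri i j k l)) +
          (2 * (halfTri (classTri i j k l)).1, 2 * (halfTri (classTri i j k l)).2.1,
            2 * (halfTri (classTri i j k l)).2.2) ∧
        ¬ (8 : ℤ) ∣ triNorm (halfTri (classTri i j k l))) := by
  decide +kernel

theorem triO_add (s t : ℤ × ℤ × ℤ) : triO (s + t) = triO s + triO t := by
  simp only [triO, Prod.fst_add, Prod.snd_add]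
  push_cast
  ring

/-- **Square classes which are not squares modulo `4`.** -/
theorem exists_root_not_four (i j k l : Fin 2) (h : ¬ allowedClass i j k l) :
    ∃ r : 𝓞 F, 2 ∣ triO (classTri i j k l) - r ^ 2 ∧ ¬ 4 ∣ triO (classTri i j k l) - r ^ 2 := by
  obtain ⟨he, h8⟩ := (classTri_table i j k l).resolve_left h
  set y := halfTri (classTri i j k l)
  generalize rootTri (classTri i j k l) = R at he
  have e : triO (classTri i j k l) - triO R ^ 2 = 2 * triO y := by
    rw [sq, triO_mul, he, triO_add]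
    simp only [triO]
    push_cast
    ring
  exact ⟨_, ⟨_, e⟩, e ▸ four_not_dvd (by rwa [norm_triO])⟩

theorem not_isSquare_class (i j k : Fin 2) (h : i ≠ 0 ∨ j ≠ 0 ∨ k ≠ 0) (η : 𝓞 F) :
    η ^ 2 ≠ triO (classTri i j k 0) := fun e => by
  obtain ⟨r, ⟨y, hy⟩, h4⟩ := exists_root_not_four i j k 0 fun h' => by
    rcases h' with ⟨h1, h2, h3, -⟩ | ⟨-, -, -, h4⟩
    · exact h.elim (fun h => h h1) fun h => h.elim (fun h => h h2) fun h => h h3
    · exact absurd h4 (by decide)
  obtain ⟨z, hz⟩ := prime_two_F.dvd_of_dvd_pow (n := 2)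
    (⟨y + r ^ 2 - η * r, by linear_combination e + hy⟩ : (2 : 𝓞 F) ∣ (η - r) ^ 2)
  exact h4 ⟨r * z + z ^ 2, by rw [← e, eq_add_of_sub_eq hz]; ring⟩

/-! ### Units modulo squares -/

/-- `-1`, `e` and `e - 1`, with their exponents. -/
def classU (v : Fin 2 × Fin 2 × Fin 2) : (𝓞 F)ˣ :=
  (-1) ^ v.1.val *
    Units.mkOfMulEqOne genO (3 - genO ^ 2) (by linear_combination -genO_eq) ^ v.2.1.val *
    Units.mkOfMulEqOne (genO - 1) (genO ^ 2 + genO - 2) (by linear_combination genO_eq) ^ v.2.2.val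

theorem coe_classU (v : Fin 2 × Fin 2 × Fin 2) :
    ((classU v : (𝓞 F)ˣ) : 𝓞 F) = triO (classTri v.1 v.2.1 v.2.2 0) := by
  obtain ⟨a, b, c⟩ := v
  fin_cases a <;> fin_cases b <;> fin_cases c <;>
    simp [classU, classTri, triMul, triO, Units.mkOfMulEqOne] <;> ring

theorem pow_class_mul {G : Type*} [CommMonoid G] (a b c : G) (i i' j j' k k' : Fin 2) :
    a ^ i.val * b ^ j.val * c ^ k.val * (a ^ i'.val * b ^ j'.val * c ^ k'.val) =
      a ^ (i + i').val * b ^ (j + j').val * c ^ (k + k').val *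
        (a ^ (i.val * i'.val) * b ^ (j.val * j'.val) * c ^ (k.val * k'.val)) ^ 2 := by
  have hpow : ∀ (x : G) (p q : Fin 2),
      x ^ p.val * x ^ q.val = x ^ (p + q).val * (x ^ (p.val * q.val)) ^ 2 := fun x p q => by
    rw [← pow_add, ← pow_mul, ← pow_add]
    congr 1
    revert p q
    decide
  rw [mul_mul_mul_comm, mul_mul_mul_comm (a ^ i.val), hpow, hpow, hpow, mul_pow, mul_pow]
  ac_rfl

theorem classU_injective {v v' : Fin 2 × Fin 2 × Fin 2} {η : (𝓞 F)ˣ}
    (h : classU v = classU v' * η ^ 2) : v = v' := by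
  by_contra hne
  set w := v + v'
  have hw : w ≠ 0 := fun e => hne (by
    have key : ∀ a b : Fin 2 × Fin 2 × Fin 2, a + b = 0 → a = b := by decide
    exact key _ _ e)
  obtain ⟨κ, hκ⟩ : ∃ κ, classU v * classU v' = classU w * κ ^ 2 :=
    ⟨_, pow_class_mul _ _ _ v.1 v'.1 v.2.1 v'.2.1 v.2.2 v'.2.2⟩
  have hsq : classU w = (classU v' * η * κ⁻¹) ^ 2 := by
    rw [mul_pow, mul_pow, inv_pow, eq_mul_inv_iff_mul_eq, ← hκ, h, sq (classU v'), mul_right_comm]
  refine not_isSquare_class w.1 w.2.1 w.2.2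
    ?_ ((classU v' * η * κ⁻¹ : (𝓞 F)ˣ) : 𝓞 F)
    (by rw [← coe_classU, ← Units.val_pow_eq_pow_val, ← hsq])
  have key : ∀ a : Fin 2 × Fin 2 × Fin 2, a ≠ 0 → a.1 ≠ 0 ∨ a.2.1 ≠ 0 ∨ a.2.2 ≠ 0 := by decide
  exact key w hw

/-- **Every unit is `± e ^ j (e - 1) ^ k` times a square.** -/
theorem unit_classes_F (u : (𝓞 F)ˣ) : ∃ (v : Fin 2 × Fin 2 × Fin 2) (η : (𝓞 F)ˣ),
    u = classU v * η ^ 2 := by
  classical
  have hodd : Odd (finrank ℚ F) := by rw [finrank_F]; decide
  set T := ZMod 2 × (Fin (Units.rank F) → ZMod 2)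
  let g : T → (𝓞 F)ˣ := fun x => (-1) ^ x.1.val * ∏ i, Units.fundSystem F i ^ (x.2 i).val
  have hg : ∀ u : (𝓞 F)ˣ, ∃ (x : T) (η : (𝓞 F)ˣ), u = g x * η ^ 2 := fun u => by
    obtain ⟨⟨t, f⟩, hu, -⟩ := Units.exist_unique_eq_mul_prod F u
    obtain ⟨a, ha⟩ : ∃ a : ZMod 2, (t : (𝓞 F)ˣ) = (-1) ^ a.val := by
      rcases Units.torsion_eq_one_or_neg_one_of_odd_finrank hodd t with h | h
      · exact ⟨0, by rw [h]; simp⟩
      · exact ⟨1, by rw [h]; simp [ZMod.val_one]⟩
    refine ⟨(a, fun i => (f i : ZMod 2)), ∏ i, Units.fundSystem F i ^ (f i / 2), ?_⟩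
    simp only [g, hu, ha, mul_assoc, ← Finset.prod_pow, ← Finset.prod_mul_distrib]
    congr 1
    refine Finset.prod_congr rfl fun i _ => ?_
    rw [← zpow_natCast, ← zpow_natCast, ← zpow_mul, ← zpow_add]
    congr 1
    rw [ZMod.val_intCast]
    push_cast
    omega
  choose x η hx using hg
  have hinj : Function.Injective fun v => x (classU v) := fun v v' h => by
    refine classU_injective (η := (η (classU v')) ⁻¹ * η (classU v)) ?_
    have h1 := hx (classU v)
    have h2 := hx (classU v')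
    simp only at h
    rw [h] at h1
    generalize η (classU v) = A at h1 ⊢
    generalize η (classU v') = B at h2 ⊢
    generalize g (x (classU v')) = G at h1 h2
    rw [h1, h2, mul_pow, inv_pow, ← mul_assoc, mul_inv_cancel_right]
  have hcard : Fintype.card T ≤ Fintype.card (Fin 2 × Fin 2 × Fin 2) := by
    have h := InfinitePlace.card_add_two_mul_card_eq_rank F
    have h' := InfinitePlace.card_eq_nrRealPlaces_add_nrComplexPlaces (K := F)
    rw [finrank_F] at h
    have hr : Units.rank F ≤ 2 := by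
      show Fintype.card (InfinitePlace F) - 1 ≤ 2
      omega
    simp only [T, Fintype.card_prod, ZMod.card, Fintype.card_fun, Fintype.card_fin]
    calc 2 * 2 ^ Units.rank F ≤ 2 * 2 ^ 2 := by gcongr; norm_num
      _ = 2 * (2 * 2) := by norm_num
  have hbij : Function.Bijective fun v => x (classU v) :=
    (Fintype.bijective_iff_injective_and_card _).2
      ⟨hinj, le_antisymm (Fintype.card_le_of_injective _ hinj) hcard⟩
  obtain ⟨v, hv⟩ := hbij.2 (x u)
  simp only at hv
  refine ⟨v, (η (classU v))⁻¹ * η u, ?_⟩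
  have h1 := hx (classU v)
  have h2 := hx u
  rw [← hv] at h2
  generalize η (classU v) = A at h1 ⊢
  generalize η u = B at h2 ⊢
  generalize g (x (classU v)) = G at h1 h2
  rw [h1, h2, mul_pow, inv_pow, ← mul_assoc, mul_inv_cancel_right]

theorem prime_genO_add_one : Prime (genO + 1) := by
  have h : Algebra.norm ℤ (genO + 1) = -3 := by
    rw [show genO + 1 = triO (1, 1, 0) by simp [triO]; ring, norm_triO]; decide
  have hπ : genO + 1 ≠ 0 := fun e => by
    rw [e, Algebra.norm_zero] at h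
    norm_num at h
  rw [← Ideal.span_singleton_prime hπ]
  refine Ideal.isPrime_of_irreducible_absNorm ?_
  rw [Ideal.absNorm_span_singleton, h]
  exact Nat.prime_three.prime.irreducible

theorem exists_prime_number_F (π : 𝓞 F) (hπ : Prime π) (hτ : ¬ π ∣ genO + 1) :
    ∃ q : ℕ, q.Prime ∧ q ≠ 3 ∧ π ∣ (q : 𝓞 F) := by
  set N := Ideal.absNorm (Ideal.span {π})
  have hN : N ≠ 0 := by
    rw [Ne, Ideal.absNorm_eq_zero_iff, Ideal.span_singleton_eq_bot]; exact hπ.ne_zero
  have hd : π ∣ (N : 𝓞 F) := Ideal.mem_span_singleton.1 (Ideal.absNorm_mem _)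
  rw [← Nat.prod_primeFactorsList hN, ← Nat.coe_castRingHom, map_list_prod, hπ.dvd_prod_iff] at hd
  obtain ⟨v, hv, hdv⟩ := hd
  obtain ⟨q, hq, rfl⟩ := List.mem_map.1 hv
  refine ⟨q, Nat.prime_of_mem_primeFactorsList hq, fun e => hτ ?_, hdv⟩
  rw [Nat.coe_castRingHom, e, Nat.cast_ofNat] at hdv
  exact hπ.dvd_of_dvd_pow (n := 3)
    (hdv.trans ⟨genO * (genO + 2), by linear_combination genO_eq⟩)

end FA.SerreThree

end
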