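import Fermat.Agent.TateTwo.Inertia
import Fermat.Agent.Faltings.Hermite
import Mathlib.NumberTheory.NumberField.Basic

/-!
# Radicals in a Galois number field unramified outside three

Let `L` be a finite Galois extension of `ℚ` inside `ℚ̄` which is unramified outside `3`, and let
`φ : R →+* 𝓞 L` be a ring of integers in which `τ` is the only prime above `3`. An element of `R`
which becomes an `n`-th power in `L` is a unit times a power of `τ` times an `n`-th power, and if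
it becomes a square and is a square `r²` modulo `2` then it is `r²` modulo `4`.
-/

set_option autoImplicit false
set_option linter.unusedSectionVars false
set_option linter.style.haveILetI false

noncomputable section

open NumberField FA.TateTwo
open scoped Pointwise

local notation "Qb" => AlgebraicClosure ℚ
local notation "GQ" => AlgebraicClosure ℚ ≃ₐ[ℚ] AlgebraicClosure ℚ

namespace FA.SerreThree

/-- The inertia groups above the primes other than `3` fix `L`. -/
def UnramifiedOutsideThree (L : IntermediateField ℚ Qb) : Prop :=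
  ∀ q : ℕ, q.Prime → q ≠ 3 → ∀ A : ValuationSubring Qb, A.LiesOverPrime q →
    A.inertiaSubgroupIn ℚ ≤ L.fixingSubgroup

variable {L : IntermediateField ℚ Qb} [FiniteDimensional ℚ L] [IsGalois ℚ L]
  (hL : UnramifiedOutsideThree L)

include hL in
theorem squarefree_span {q : ℕ} (hq : q.Prime) (h3 : q ≠ 3) :
    Squarefree (Ideal.span {(q : 𝓞 L)}) := by
  have : NumberField L := { }
  have hq0 : (q : 𝓞 L) ≠ 0 := by exact_mod_cast hq.ne_zero
  have hsp : Ideal.span {(q : 𝓞 L)} ≠ 0 := by simpa [Ideal.span_singleton_eq_bot] using hq0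
  rw [squarefree_iff_irreducible_sq_not_dvd_of_ne_zero hsp]
  intro P hP hdvd
  have hPp : Prime P := hP.prime
  have : P.IsPrime := Ideal.isPrime_of_prime hPp
  have : P.IsMaximal := Ideal.IsPrime.isMaximal inferInstance hPp.ne_zero
  have hqP : (q : 𝓞 L) ∈ P := by
    have := Ideal.dvd_span_singleton.1 (dvd_trans (dvd_mul_right P P) hdvd)
    exact this
  have hinert : ∀ τ : L ≃ₐ[ℚ] L, (∀ x : 𝓞 L, τ • x - x ∈ P) → τ = 1 := by
    intro τ hτ
    obtain ⟨A, hA, σ, hσ, hστ⟩ := FA.Ext.exists_inertia_lift L P hq hqP τ hτ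
    refine AlgEquiv.ext fun y => Subtype.ext ?_
    rw [← hστ y]
    exact hL q hq h3 A hA hσ y
  have := IsGaloisGroup.of_isFractionRing (L ≃ₐ[ℚ] L) ℤ (𝓞 L) ℚ L
  let pI : Ideal ℤ := Ideal.span {(q : ℤ)}
  have hpI : pI.IsMaximal := PrincipalIdealRing.isMaximal_of_irreducible
    (Nat.prime_iff_prime_int.mp hq).irreducible
  have hover : P.LiesOver pI := by
    refine ⟨hpI.eq_of_le (Ideal.IsPrime.ne_top') ?_⟩
    rw [Ideal.span_le, Set.singleton_subset_iff, SetLike.mem_coe, Ideal.mem_comap]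
    simpa using hqP
  have : Finite pI.ResidueField := by
    have : Finite (ℤ ⧸ pI) := by
      have : NeZero q := ⟨hq.ne_zero⟩
      exact Finite.of_equiv (ZMod q) (Int.quotientSpanNatEquivZMod q).symm.toEquiv
    exact Finite.of_surjective _ pI.bijective_algebraMap_quotient_residueField.2
  have hmap : pI.map (algebraMap ℤ (𝓞 L)) = Ideal.span {(q : 𝓞 L)} := by
    rw [Ideal.map_span, Set.image_singleton]
    simp
  have hcard : Nat.card (P.inertia (L ≃ₐ[ℚ] L)) = 1 := by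
    rw [(Subgroup.eq_bot_iff_forall _).mpr fun σ (hσ : σ ∈ P.inertia (L ≃ₐ[ℚ] L)) => hinert σ hσ,
      Subgroup.card_bot]
  rw [Ideal.card_inertia_eq_ramificationIdxIn pI P,
    Ideal.ramificationIdxIn_eq_ramificationIdx pI P (L ≃ₐ[ℚ] L),
    Ideal.IsDedekindDomain.ramificationIdx_eq_multiplicity pI P
      (by rw [hmap]; exact hsp), hmap] at hcard
  have h2 : 2 ≤ multiplicity P (Ideal.span {(q : 𝓞 L)}) :=
    (FiniteMultiplicity.of_prime_left hPp hsp).pow_dvd_iff_le_multiplicity.1 (by rwa [sq])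
  omega

include hL in
/-- A divisor of a prime number other than `3` divides `x` if it divides a power of `x`. -/
theorem dvd_of_dvd_pow_outside {q : ℕ} (hq : q.Prime) (h3 : q ≠ 3) {π x : 𝓞 L} {n : ℕ}
    (hπ : π ∣ (q : 𝓞 L)) (hx : π ∣ x ^ n) : π ∣ x := by
  have : NumberField L := { }
  have hr : IsRadical (Ideal.span {π}) := by
    refine ((squarefree_span hL hq h3).squarefree_of_dvd ?_).isRadical
    rw [Ideal.dvd_iff_le, Ideal.span_singleton_le_span_singleton]
    exact hπ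
  have := hr n (Ideal.span {x}) (by
    rw [Ideal.span_singleton_pow, Ideal.dvd_iff_le, Ideal.span_singleton_le_span_singleton]
    exact hx)
  rwa [Ideal.dvd_iff_le, Ideal.span_singleton_le_span_singleton] at this

variable {R : Type*} [CommRing R] [IsDomain R] [UniqueFactorizationMonoid R] (φ : R →+* 𝓞 L)

include hL in
/-- **Radicals**: only the prime over `3` and the units survive. -/
theorem exists_eq_unit_mul_pow (hφ : ∀ x y : R, φ x ∣ φ y → x ∣ y) {τ : R} (hτ : Prime τ)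
    (hπ : ∀ π : R, Prime π → ¬ π ∣ τ → ∃ q : ℕ, q.Prime ∧ q ≠ 3 ∧ π ∣ (q : R))
    {n : ℕ} (hn : n ≠ 0) {a : R} (ha : a ≠ 0) {y : L} (hy : y ^ n = (φ a : L)) :
    ∃ (u : Rˣ) (j : ℕ) (g : R), a = u * τ ^ j * g ^ n := by
  have : NumberField L := { }
  obtain ⟨j, a₁, hτa, rfl⟩ := WfDvdMonoid.max_power_factor ha hτ.irreducible
  suffices H : ∀ b : R, ¬ τ ∣ b → (∃ z : L, z ^ n = (φ (τ ^ j * b) : L)) →
      ∃ (u : Rˣ) (g : R), b = u * g ^ n by
    obtain ⟨u, g, rfl⟩ := H a₁ hτa ⟨y, hy⟩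
    exact ⟨u, j, g, by ring⟩
  refine fun b => WellFounded.induction (C := fun b : R => ¬ τ ∣ b →
      (∃ z : L, z ^ n = (φ (τ ^ j * b) : L)) → ∃ (u : Rˣ) (g : R), b = u * g ^ n)
    wellFounded_dvdNotUnit b fun b ih => ?_
  intro hτb hz
  by_cases hu : IsUnit b
  · exact ⟨hu.unit, 1, by simp⟩
  have hb : b ≠ 0 := fun e => hτb (e ▸ dvd_zero τ)
  obtain ⟨π, hπi, hπb⟩ := WfDvdMonoid.exists_irreducible_factor hu hb
  have hπp : Prime π := hπi.prime
  have hπτ : ¬ π ∣ τ := fun hd =>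
    hτb ((hπp.associated_of_dvd hτ hd).symm.dvd.trans hπb)
  obtain ⟨q, hq, h3, hπq⟩ := hπ π hπp hπτ
  obtain ⟨z, hz⟩ := hz
  have hzi : IsIntegral ℤ z := IsIntegral.of_pow (Nat.pos_of_ne_zero hn)
    (by rw [hz]; exact RingOfIntegers.isIntegral_coe _)
  set z' : 𝓞 L := ⟨z, hzi⟩
  have hz' : z' ^ n = φ (τ ^ j * b) := RingOfIntegers.ext (by rw [← hz]; rfl)
  obtain ⟨w, hw⟩ : φ π ∣ z' := dvd_of_dvd_pow_outside hL hq h3
    (by rw [← map_natCast φ]; exact map_dvd φ hπq)
    (by rw [hz']; exact map_dvd φ (dvd_mul_of_dvd_right hπb _))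
  have hdn : π ^ n ∣ τ ^ j * b := hφ _ _ ⟨w ^ n, by rw [← hz', hw, map_pow, mul_pow]⟩
  obtain ⟨b', rfl⟩ := hπp.pow_dvd_of_dvd_mul_left n (fun h => hπτ (hπp.dvd_of_dvd_pow h)) hdn
  have hφπ : φ π ≠ 0 := fun e => hπp.ne_zero (zero_dvd_iff.1 (hφ 0 π (by rw [e]; exact dvd_zero _)))
  have hb' : b' ≠ 0 := right_ne_zero_of_mul hb
  obtain ⟨u, g, hg⟩ := ih b' ⟨hb', π ^ n, fun h => hπp.not_isUnit ((isUnit_pow_iff hn).1 h),
      mul_comm _ _⟩
    (fun hd => hτb (dvd_mul_of_dvd_right hd _))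
    ⟨(w : L), by
      refine congrArg (fun t : 𝓞 L => (t : L)) (?_ : w ^ n = φ (τ ^ j * b'))
      refine mul_left_cancel₀ (pow_ne_zero n hφπ) ?_
      rw [← mul_pow, ← hw, hz', ← map_pow, ← map_mul]
      congr 1
      ring⟩
  exact ⟨u, π * g, by rw [hg]; ring⟩

include hL in
/-- **The congruence modulo four**: no square root ramifies at two. -/
theorem four_dvd_sub_sq (hφ : ∀ x y : R, φ x ∣ φ y → x ∣ y) {a r : R} (h2 : 2 ∣ a - r ^ 2)
    {y : L} (hy : y ^ 2 = (φ a : L)) : 4 ∣ a - r ^ 2 := by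
  have : NumberField L := { }
  have hyi : IsIntegral ℤ y := IsIntegral.of_pow two_pos
    (by rw [hy]; exact RingOfIntegers.isIntegral_coe _)
  set y' : 𝓞 L := ⟨y, hyi⟩
  have hy' : y' ^ 2 = φ a := RingOfIntegers.ext (by rw [← hy]; rfl)
  obtain ⟨k, hk⟩ := h2
  obtain ⟨z, hz⟩ : (2 : 𝓞 L) ∣ y' - φ r := by
    refine dvd_of_dvd_pow_outside hL Nat.prime_two (by norm_num) (n := 2) (by norm_num) ?_
    refine ⟨φ k + (φ r ^ 2 - y' * φ r), ?_⟩
    have e : φ a - φ r ^ 2 = 2 * φ k := by rw [← map_pow, ← map_sub, hk, map_mul, map_ofNat]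
    linear_combination hy' + e
  refine hφ _ _ ⟨φ r * z + z ^ 2, ?_⟩
  rw [map_sub, map_pow, ← hy', map_ofNat, eq_add_of_sub_eq hz]
  ring

end FA.SerreThree

end
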